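import Mathlib
import Fermat.Prelude.Def_FLTPrelim_Modularity
import Fermat.Agent.S20.Free.Defs

/-!
# P-S48, block GS1: shared definitions

GS1 = Galois stability and integral structure of `CuspForm (Gamma1 M) k` (all `k ≥ 1`), reduced to
the landed `Γ₀(M)` results of project S22/S23 by division with an Eisenstein series with character
(note `S48-IFACE-GS1`).  This file only fixes the shared vocabulary:

* `HasChar M k χ f` : the function `f` has nebentypus `χ` on `Γ₀(M)`;
* `GaloisStable1 M k`, `intLattice1 M k`, `HasIntegralStructure1 M k` : the `Γ₁(M)` versions of the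
  `Γ₀(N)` notions of `Fermat.Agent.S23` / the Prelude;
* `EisCharStatement`, `DivideStatement` : the statements of the two analytic sub-packages
  (`EisChar.lean`, `Divide.lean`), so that the algebraic files can be written against them.
-/

set_option autoImplicit false

open UpperHalfPlane ModularForm CongruenceSubgroup
open scoped MatrixGroups ModularForm Manifold

namespace Fermat.Agent.S48x.GS1

open Fermat.Agent.S20.Free

/-- `f` has nebentypus `χ` on `Γ₀(M)`: `f ∣[k] γ = χ(d_γ) f` for `γ ∈ Γ₀(M)`. -/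
def HasChar (M : ℕ) (k : ℤ) (χ : DirichletCharacter ℂ M) (f : ℍ → ℂ) : Prop :=
  ∀ γ ∈ Gamma0 M, f ∣[k] γ = χ (((γ 1 1 : ℤ)) : ZMod M) • f

/-- The space of cusp forms on `Γ₁(M)` is stable under `Aut(ℂ)` acting on `q`-expansions. -/
def GaloisStable1 (M : ℕ) (k : ℤ) : Prop :=
  ∀ (σ : ℂ ≃+* ℂ) (f : CuspForm (Gamma1 M) k),
    ∃ g : CuspForm (Gamma1 M) k, ∀ n : ℕ,
      ModularFormClass.qCoeff g n = σ (ModularFormClass.qCoeff f n)

/-- The lattice spanned by the cusp forms on `Γ₁(M)` with integral `q`-expansion. -/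
def intLattice1 (M : ℕ) (k : ℤ) : Submodule ℤ (CuspForm (Gamma1 M) k) :=
  Submodule.span ℤ {f | ∀ n : ℕ, ∃ m : ℤ, ModularFormClass.qCoeff f n = (m : ℂ)}

/-- `S_k(Γ₁(M))` is spanned by forms with integral `q`-expansion (mirror of the Prelude
`CuspForm.HasIntegralStructure`). -/
def HasIntegralStructure1 (M : ℕ) (k : ℤ) : Prop :=
  Submodule.span ℂ ((intLattice1 M k : Submodule ℤ (CuspForm (Gamma1 M) k)) :
    Set (CuspForm (Gamma1 M) k)) = ⊤

/-- Statement of `EisChar.lean`: Eisenstein series of weight `w ≥ 3` with a nontrivial character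
`ψ` of the right parity, with explicit `q`-expansion at `∞`. -/
def EisCharStatement : Prop :=
  ∀ (M : ℕ) [NeZero M] (ψ : DirichletCharacter ℂ M), ψ ≠ 1 → ∀ w : ℕ, 3 ≤ w →
    ψ (-1) = (-1) ^ w →
    ∃ G : ℍ → ℂ, IsMF (Gamma1 M) w G ∧ HasChar M w ψ G ∧
      ∀ n : ℕ, ModularFormClass.qCoeff G n =
        ∑ c ∈ n.divisors, ψ (c : ZMod M) * ((n / c : ℕ) : ℂ) ^ (w - 1)

/-- Statement of `Divide.lean`: if `u ^ n = w * v ^ n` with `u, v, w` holomorphic on `ℍ` and
`v ≠ 0`, then `u / v` extends to a holomorphic function on `ℍ`. -/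
def DivideStatement : Prop :=
  ∀ {u v w : ℍ → ℂ}, MDiff u → MDiff v → MDiff w → v ≠ 0 → ∀ {n : ℕ}, 0 < n →
    (∀ z, u z ^ n = w z * v z ^ n) →
    ∃ F : ℍ → ℂ, MDiff F ∧ (∀ z, F z * v z = u z) ∧ ∀ z, F z ^ n = w z

end Fermat.Agent.S48x.GS1
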