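import Mathlib
import Fermat.Agent.S20.Free.Defs
import Fermat.Agent.S24.Growth
import Fermat.Prelude.Def_FLTPrelim_Modularity

/-!
helper80 (P-S48, GS1-(E)).  Eisenstein series with character.

For a non-trivial Dirichlet character `ψ` mod `M` and a weight `w ≥ 3` of the parity of `ψ`,
the function `G = ∑_{n ≥ 1} (∑_{c ∣ n} ψ(c) (n/c)^(w-1)) q^n` is a modular form of weight `w`
on `Γ₁(M)` on which `Γ₀(M)` acts through `ψ(d)`.

Construction: `F(z) = ∑_{(c,d), M ∣ d} ψ(c) (c z + d)^(-w)` (full lattice sum, `latSum`),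
`G = const • F ∣[w] diag(M, 1)`.
-/

set_option autoImplicit false

open UpperHalfPlane hiding I
open ModularForm EisensteinSeries Matrix CongruenceSubgroup Complex Filter
open scoped MatrixGroups ModularForm Manifold Topology Real Nat

namespace Fermat.Agent.S48x.GS1.EisChar

noncomputable section

/-- weighted full-lattice Eisenstein sum -/
def latSum (χ : (Fin 2 → ℤ) → ℂ) (k : ℤ) (z : ℍ) : ℂ :=
  ∑' v : Fin 2 → ℤ, χ v * eisSummand k v z

/-- right multiplication by `γ` as an equivalence of the lattice `ℤ²` -/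
def vecMulEquiv (γ : SL(2, ℤ)) : (Fin 2 → ℤ) ≃ (Fin 2 → ℤ) where
  toFun v := v ᵥ* (γ : Matrix (Fin 2) (Fin 2) ℤ)
  invFun v := v ᵥ* ((γ⁻¹ : SL(2, ℤ)) : Matrix (Fin 2) (Fin 2) ℤ)
  left_inv v := by
    show (v ᵥ* (γ : Matrix (Fin 2) (Fin 2) ℤ)) ᵥ*
      ((γ⁻¹ : SL(2, ℤ)) : Matrix (Fin 2) (Fin 2) ℤ) = v
    rw [vecMul_vecMul, ← Matrix.SpecialLinearGroup.coe_mul, mul_inv_cancel,
      Matrix.SpecialLinearGroup.coe_one, vecMul_one]
  right_inv v := by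
    show (v ᵥ* ((γ⁻¹ : SL(2, ℤ)) : Matrix (Fin 2) (Fin 2) ℤ)) ᵥ*
      (γ : Matrix (Fin 2) (Fin 2) ℤ) = v
    rw [vecMul_vecMul, ← Matrix.SpecialLinearGroup.coe_mul, inv_mul_cancel,
      Matrix.SpecialLinearGroup.coe_one, vecMul_one]

@[simp] theorem vecMulEquiv_apply (γ : SL(2, ℤ)) (v : Fin 2 → ℤ) :
    vecMulEquiv γ v = v ᵥ* (γ : Matrix (Fin 2) (Fin 2) ℤ) := rfl

theorem vecMul_vecMul_inv (γ : SL(2, ℤ)) (v : Fin 2 → ℤ) :
    (v ᵥ* (γ : Matrix (Fin 2) (Fin 2) ℤ)) ᵥ* ((γ⁻¹ : SL(2, ℤ)) : Matrix (Fin 2) (Fin 2) ℤ) = v :=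
  (vecMulEquiv γ).left_inv v

theorem latSum_slash (χ : (Fin 2 → ℤ) → ℂ) (k : ℤ) (γ : SL(2, ℤ)) :
    latSum χ k ∣[k] γ =
      latSum (fun v => χ (v ᵥ* ((γ⁻¹ : SL(2, ℤ)) : Matrix (Fin 2) (Fin 2) ℤ))) k := by
  ext1 z
  rw [SL_slash_apply, _root_.zpow_neg, mul_inv_eq_iff_eq_mul₀ (zpow_ne_zero _ <| denom_ne_zero _ z)]
  simp only [latSum]
  rw [← (vecMulEquiv γ).tsum_eq
    (fun v => χ (v ᵥ* ((γ⁻¹ : SL(2, ℤ)) : Matrix (Fin 2) (Fin 2) ℤ)) * eisSummand k v z),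
    ← tsum_mul_right]
  refine tsum_congr fun v => ?_
  rw [vecMulEquiv_apply, vecMul_vecMul_inv, eisSummand_SL2_apply]
  ring

/-- the majorant `∑ ‖(c z + d)^(-k)‖` -/
def eisMaj (k : ℤ) (z : ℍ) : ℝ := ∑' v : Fin 2 → ℤ, ‖eisSummand k v z‖

theorem norm_latSum_le {χ : (Fin 2 → ℤ) → ℂ} (hχ : ∀ v, ‖χ v‖ ≤ 1) {k : ℤ} (hk : 3 ≤ k) (z : ℍ) :
    ‖latSum χ k z‖ ≤ eisMaj k z := by
  have hs := summable_norm_eisSummand hk z
  have hs' : Summable fun v => ‖χ v * eisSummand k v z‖ := by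
    refine Summable.of_nonneg_of_le (fun _ => norm_nonneg _) (fun v => ?_) hs
    rw [norm_mul]
    exact mul_le_of_le_one_left (norm_nonneg _) (hχ v)
  refine (norm_tsum_le_tsum_norm hs').trans ?_
  refine hs'.tsum_le_tsum (fun v => ?_) hs
  rw [norm_mul]
  exact mul_le_of_le_one_left (norm_nonneg _) (hχ v)

theorem summable_latSum {χ : (Fin 2 → ℤ) → ℂ} (hχ : ∀ v, ‖χ v‖ ≤ 1) {k : ℤ} (hk : 3 ≤ k) (z : ℍ) :
    Summable fun v => χ v * eisSummand k v z := by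
  have hs := summable_norm_eisSummand hk z
  refine Summable.of_norm ?_
  refine Summable.of_nonneg_of_le (fun _ => norm_nonneg _) (fun v => ?_) hs
  rw [norm_mul]
  exact mul_le_of_le_one_left (norm_nonneg _) (hχ v)

theorem eisMaj_T_zpow_smul (k : ℤ) (n : ℤ) (z : ℍ) :
    eisMaj k (ModularGroup.T ^ n • z) = eisMaj k z := by
  simp only [eisMaj]
  rw [← (vecMulEquiv (ModularGroup.T ^ n)).tsum_eq (fun v => ‖eisSummand k v z‖)]
  refine tsum_congr fun v => ?_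
  rw [vecMulEquiv_apply, eisSummand_SL2_apply]
  have : denom (ModularGroup.T ^ n : SL(2, ℤ)) z = 1 := by
    rw [ModularGroup.denom_apply]
    simp [ModularGroup.coe_T_zpow]
  rw [this]
  simp

theorem isBoundedAtImInfty_latSum {χ : (Fin 2 → ℤ) → ℂ} (hχ : ∀ v, ‖χ v‖ ≤ 1) {k : ℤ}
    (hk : 3 ≤ k) : IsBoundedAtImInfty (latSum χ k) := by
  rw [UpperHalfPlane.isBoundedAtImInfty_iff]
  refine ⟨∑' (x : Fin 2 → ℤ), r ⟨⟨1, 2⟩, Nat.ofNat_pos⟩ ^ (-k) * ‖x‖ ^ (-k), 2, ?_⟩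
  intro z hz
  obtain ⟨n, hn⟩ := (ModularGroup_T_zpow_mem_verticalStrip z (N := 1) one_pos)
  simp only [Nat.cast_one] at hn
  refine (norm_latSum_le hχ hk z).trans ?_
  rw [← eisMaj_T_zpow_smul k ((1 : ℤ) * n) z]
  have hk' : (2 : ℝ) < k := by norm_cast
  simp only [eisMaj]
  apply (summable_norm_eisSummand hk _).tsum_le_tsum _
  · exact_mod_cast (summable_one_div_norm_rpow hk').mul_left <| r ⟨⟨1, 2⟩, Nat.ofNat_pos⟩ ^ (-k)
  · intro x
    simp_rw [eisSummand, norm_zpow]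
    exact_mod_cast
      summand_bound_of_mem_verticalStrip (lt_trans two_pos hk').le x two_pos
      (verticalStrip_anti_right 1 hz hn)

theorem tsum_pnat_prod_eq_tsum_divisors {h : ℕ → ℕ → ℂ}
    (hs : Summable fun p : ℕ+ × ℕ+ => h p.1 p.2) :
    ∑' d : ℕ+, ∑' c : ℕ+, h d c = ∑' e : ℕ+, ∑ x ∈ (e : ℕ).divisors, h x ((e : ℕ) / x) := by
  rw [← hs.tsum_prod (f := fun p : ℕ+ × ℕ+ => h p.1 p.2)]
  rw [← sigmaAntidiagonalEquivProd.tsum_eq (fun p : ℕ+ × ℕ+ => h p.1 p.2)]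
  have hs' : Summable fun c : (n : ℕ+) × (Nat.divisorsAntidiagonal n) =>
      h (sigmaAntidiagonalEquivProd c).1 (sigmaAntidiagonalEquivProd c).2 :=
    (sigmaAntidiagonalEquivProd.summable_iff (f := fun p : ℕ+ × ℕ+ => h p.1 p.2)).mpr hs
  rw [Summable.tsum_sigma hs']
  refine tsum_congr fun n => ?_
  rw [tsum_fintype, Finset.univ_eq_attach, ← Nat.sum_divisorsAntidiagonal (fun a b => h a b)]
  exact Finset.sum_attach _ (fun x : ℕ × ℕ => h x.1 x.2)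

/-- sum over the multiples of `M` -/
theorem tsum_ite_dvd (M : ℕ) [NeZero M] (f : ℤ → ℂ) :
    ∑' d : ℤ, (if ((d : ℤ) : ZMod M) = 0 then f d else 0) = ∑' d' : ℤ, f ((M : ℤ) * d') := by
  have hinj : Function.Injective fun d' : ℤ => (M : ℤ) * d' := by
    intro a b hab
    exact mul_left_cancel₀ (by exact_mod_cast NeZero.ne M) hab
  have hsupp : Function.support (fun d : ℤ => if ((d : ℤ) : ZMod M) = 0 then f d else 0) ⊆
      Set.range fun d' : ℤ => (M : ℤ) * d' := by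
    intro d hd
    rw [Function.mem_support] at hd
    by_cases h : ((d : ℤ) : ZMod M) = 0
    · obtain ⟨d', rfl⟩ := (ZMod.intCast_zmod_eq_zero_iff_dvd _ _).mp h
      exact ⟨d', rfl⟩
    · simp [h] at hd
  rw [← hinj.tsum_eq hsupp]
  refine tsum_congr fun d' => ?_
  have : (((M : ℤ) * d' : ℤ) : ZMod M) = 0 := by simp
  simp only [this, if_true]

/-- the Lipschitz formula for the sub-lattice sum -/
theorem tsum_inner (M : ℕ) [NeZero M] {w : ℕ} (hw : 3 ≤ w) (c : ℕ+) (z : ℍ) :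
    ∑' d' : ℤ, (((c : ℕ) : ℂ) * z + ((M : ℤ) * d' : ℤ)) ^ (-(w : ℤ)) =
      ((M : ℂ) ^ w)⁻¹ * ((-2 * π * I) ^ w / (w - 1)!) *
        ∑' m : ℕ+, ((m : ℕ) : ℂ) ^ (w - 1) * cexp (2 * π * I * z / M) ^ ((c : ℕ) * m) := by
  have hM : (M : ℂ) ≠ 0 := by exact_mod_cast NeZero.ne M
  have hpos : 0 < (((c : ℕ) : ℂ) * z / M).im := by
    have : (((c : ℕ) : ℂ) * z / M) = (((c : ℕ) / M : ℝ) : ℂ) * z := by push_cast; ring
    rw [this, Complex.im_ofReal_mul]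
    have : (0 : ℝ) < (c : ℕ) / M := by
      have h1 : (0 : ℝ) < (c : ℕ) := by exact_mod_cast c.pos
      have h2 : (0 : ℝ) < M := by exact_mod_cast NeZero.pos M
      positivity
    exact mul_pos this z.im_pos
  have H := qExpansion_identity_pnat (k := w - 1) (by omega) ⟨((c : ℕ) : ℂ) * z / M, hpos⟩
  rw [show w - 1 + 1 = w by omega] at H
  have H' : ∑' m : ℕ+, ((m : ℕ) : ℂ) ^ (w - 1) * cexp (2 * π * I * z / M) ^ ((c : ℕ) * m) =
      ∑' n : ℕ+, ((n : ℕ) : ℂ) ^ (w - 1) *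
        cexp (2 * π * I * ((⟨((c : ℕ) : ℂ) * z / M, hpos⟩ : ℍ) : ℂ)) ^ (n : ℕ) := by
    refine tsum_congr fun m => ?_
    congr 1
    rw [← Complex.exp_nat_mul, ← Complex.exp_nat_mul]
    congr 1
    push_cast
    ring
  rw [mul_assoc, H', ← H, ← tsum_mul_left]
  refine tsum_congr fun d' => ?_
  rw [_root_.zpow_neg, zpow_natCast, one_div, ← mul_inv, ← mul_pow]
  congr 2
  push_cast
  field_simp

variable (M : ℕ) [NeZero M] (psi : DirichletCharacter ℂ M)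

/-- the weight `ψ(c) · [M ∣ d]` on the lattice -/
def chiW (v : Fin 2 → ℤ) : ℂ :=
  psi ((v 0 : ℤ) : ZMod M) * (if ((v 1 : ℤ) : ZMod M) = 0 then 1 else 0)

theorem norm_chiW_le (v : Fin 2 → ℤ) : ‖chiW M psi v‖ ≤ 1 := by
  unfold chiW
  rw [norm_mul]
  split_ifs
  · simpa using DirichletCharacter.norm_le_one psi _
  · simp

/-- the full lattice sum `∑ ψ(c) (c z + d)^(-w)` over `M ∣ d` -/
def eisF (w : ℕ) : ℍ → ℂ := latSum (chiW M psi) w

/-- the `n`-th coefficient -/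
def eisCoeff (w n : ℕ) : ℂ := ∑ c ∈ n.divisors, psi (c : ZMod M) * ((n / c : ℕ) : ℂ) ^ (w - 1)

theorem norm_qM_lt_one (z : ℍ) : ‖cexp (2 * π * I * z / M)‖ < 1 := by
  have hpos : 0 < ((z : ℂ) / M).im := by
    have : ((z : ℂ) / M) = (((1 : ℝ) / M : ℝ) : ℂ) * z := by push_cast; ring
    rw [this, Complex.im_ofReal_mul]
    have h2 : (0 : ℝ) < M := by exact_mod_cast NeZero.pos M
    exact mul_pos (by positivity) z.im_pos
  have := UpperHalfPlane.norm_exp_two_pi_I_lt_one ⟨(z : ℂ) / M, hpos⟩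
  convert this using 3
  push_cast
  ring

theorem eisF_eq (hM : 1 < M) {w : ℕ} (hw : 3 ≤ w) (hpar : psi (-1) = (-1) ^ w) (z : ℍ) :
    eisF M psi w z = 2 * (((M : ℂ) ^ w)⁻¹ * ((-2 * π * I) ^ w / (w - 1)!)) *
      ∑' e : ℕ+, eisCoeff M psi w e * cexp (2 * π * I * z / M) ^ (e : ℕ) := by
  have hw' : (3 : ℤ) ≤ (w : ℤ) := by exact_mod_cast hw
  have hsum := summable_latSum (norm_chiW_le M psi) hw' z
  have hsum' : Summable fun x : ℤ × ℤ =>
      chiW M psi ![x.1, x.2] * eisSummand w ![x.1, x.2] z := by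
    refine (finTwoArrowEquiv ℤ).summable_iff.mp <| hsum.congr (fun v ↦ ?_)
    simp [show ![v 0, v 1] = v from List.ofFn_inj.mp rfl]
  have hpsi0 : psi ((0 : ℤ) : ZMod M) = 0 := by
    have : Fact (1 < M) := ⟨hM⟩
    rw [Int.cast_zero]
    exact MulChar.map_zero psi
  -- the inner sums
  have hinner : ∀ c : ℕ+, ∑' d : ℤ, chiW M psi ![((c : ℕ) : ℤ), d] *
      eisSummand w ![((c : ℕ) : ℤ), d] z =
      ((M : ℂ) ^ w)⁻¹ * ((-2 * π * I) ^ w / (w - 1)!) *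
        ∑' m : ℕ+, psi ((c : ℕ) : ZMod M) * ((m : ℕ) : ℂ) ^ (w - 1) *
          cexp (2 * π * I * z / M) ^ ((c : ℕ) * m) := by
    intro c
    have h1 : ∀ d : ℤ, chiW M psi ![((c : ℕ) : ℤ), d] * eisSummand w ![((c : ℕ) : ℤ), d] z =
        psi ((c : ℕ) : ZMod M) * (if ((d : ℤ) : ZMod M) = 0 then
          (((c : ℕ) : ℂ) * z + (d : ℤ)) ^ (-(w : ℤ)) else 0) := by
      intro d
      simp only [chiW, eisSummand, Matrix.cons_val_zero, Matrix.cons_val_one]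
      split_ifs <;> simp
    simp_rw [h1]
    rw [tsum_mul_left, tsum_ite_dvd M (fun d : ℤ => (((c : ℕ) : ℂ) * z + (d : ℤ)) ^ (-(w : ℤ))),
      tsum_inner M hw c z]
    simp_rw [← tsum_mul_left]
    refine tsum_congr fun m => ?_
    ring
  -- symmetry
  have hsymm : ∀ n : ℤ, ∑' d : ℤ, chiW M psi ![-n, d] * eisSummand w ![-n, d] z =
      ∑' d : ℤ, chiW M psi ![n, d] * eisSummand w ![n, d] z := by
    intro n
    rw [← tsum_comp_neg (fun d : ℤ => chiW M psi ![-n, d] * eisSummand w ![-n, d] z)]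
    refine tsum_congr fun d => ?_
    have e1 : chiW M psi ![-n, -d] = (-1) ^ w * chiW M psi ![n, d] := by
      simp only [chiW, Matrix.cons_val_zero, Matrix.cons_val_one, Int.cast_neg, neg_eq_zero]
      rw [← neg_one_mul ((n : ℤ) : ZMod M), map_mul, hpar]
      ring
    have e2 : eisSummand w ![-n, -d] z = (-1) ^ w * eisSummand w ![n, d] z := by
      simp only [eisSummand, Matrix.cons_val_zero, Matrix.cons_val_one, Int.cast_neg]
      rw [show -(n : ℂ) * z + -(d : ℂ) = (-1) * ((n : ℂ) * z + d) by ring, mul_zpow]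
      congr 1
      rw [_root_.zpow_neg, zpow_natCast, ← inv_pow]
      norm_num
    rw [e1, e2]
    have : ((-1 : ℂ) ^ w) * (-1) ^ w = 1 := by
      rw [← mul_pow]; norm_num
    linear_combination (chiW M psi ![n, d] * eisSummand w ![n, d] z) * this
  rw [eisF, latSum, ← (finTwoArrowEquiv ℤ).symm.tsum_eq]
  simp only [finTwoArrowEquiv_symm_apply]
  rw [Summable.tsum_prod hsum']
  have hev : Function.Even fun c : ℤ =>
      ∑' d : ℤ, chiW M psi ![c, d] * eisSummand w ![c, d] z := hsymm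
  rw [tsum_int_eq_zero_add_two_mul_tsum_pnat hev hsum'.prod, nsmul_eq_mul]
  have h0 : ∑' d : ℤ, chiW M psi ![0, d] * eisSummand w ![0, d] z = 0 := by
    have : ∀ d : ℤ, chiW M psi ![0, d] * eisSummand w ![0, d] z = 0 := by
      intro d
      simp only [chiW, Matrix.cons_val_zero]
      rw [hpsi0]
      ring
    simp_rw [this]
    exact tsum_zero
  rw [h0, zero_add]
  simp_rw [hinner]
  have hq := norm_qM_lt_one M z
  have hs2 : Summable fun p : ℕ+ × ℕ+ => psi ((p.1 : ℕ) : ZMod M) * ((p.2 : ℕ) : ℂ) ^ (w - 1) *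
      cexp (2 * π * I * z / M) ^ ((p.1 : ℕ) * p.2) := by
    have := (summable_prod_mul_pow (𝕜 := ℂ) (w - 1) hq).norm
    refine Summable.of_norm_bounded this (fun p => ?_)
    rw [mul_assoc, norm_mul]
    exact mul_le_of_le_one_left (norm_nonneg _) (DirichletCharacter.norm_le_one psi _)
  have hdouble : ∑' c : ℕ+, ∑' m : ℕ+, psi ((c : ℕ) : ZMod M) * ((m : ℕ) : ℂ) ^ (w - 1) *
      cexp (2 * π * I * z / M) ^ ((c : ℕ) * m) =
      ∑' e : ℕ+, eisCoeff M psi w e * cexp (2 * π * I * z / M) ^ (e : ℕ) := by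
    rw [tsum_pnat_prod_eq_tsum_divisors (h := fun c m => psi ((c : ℕ) : ZMod M) *
      ((m : ℕ) : ℂ) ^ (w - 1) * cexp (2 * π * I * z / M) ^ (c * m)) hs2]
    refine tsum_congr fun e => ?_
    rw [eisCoeff, Finset.sum_mul]
    refine Finset.sum_congr rfl fun x hx => ?_
    rw [Nat.mul_div_cancel' (Nat.dvd_of_mem_divisors hx)]
  rw [tsum_mul_left, hdouble]
  push_cast
  ring


omit [NeZero M] in
theorem chiW_vecMul {γ : SL(2, ℤ)} (hγ : ((γ 0 1 : ℤ) : ZMod M) = 0) (v : Fin 2 → ℤ) :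
    chiW M psi (v ᵥ* (γ : Matrix (Fin 2) (Fin 2) ℤ)) =
      psi ((γ 0 0 : ℤ) : ZMod M) * chiW M psi v := by
  have hdet := γ.det_coe
  rw [Matrix.det_fin_two] at hdet
  have hdet' : ((γ 0 0 : ℤ) : ZMod M) * ((γ 1 1 : ℤ) : ZMod M) = 1 := by
    have := congrArg (Int.cast : ℤ → ZMod M) hdet
    push_cast at this
    rw [hγ, zero_mul, sub_zero] at this
    exact this
  have e0 : (v ᵥ* (γ : Matrix (Fin 2) (Fin 2) ℤ)) 0 = v 0 * γ 0 0 + v 1 * γ 1 0 := by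
    simp [Matrix.vecMul, dotProduct, Fin.sum_univ_two]
  have e1 : (v ᵥ* (γ : Matrix (Fin 2) (Fin 2) ℤ)) 1 = v 0 * γ 0 1 + v 1 * γ 1 1 := by
    simp [Matrix.vecMul, dotProduct, Fin.sum_univ_two]
  simp only [chiW, e0, e1]
  push_cast
  rw [hγ, mul_zero, zero_add]
  by_cases h1 : ((v 1 : ℤ) : ZMod M) = 0
  · rw [h1, zero_mul, add_zero, zero_mul, if_pos rfl, map_mul]
    ring
  · have h2 : ((v 1 : ℤ) : ZMod M) * ((γ 1 1 : ℤ) : ZMod M) ≠ 0 := by
      intro h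
      apply h1
      calc ((v 1 : ℤ) : ZMod M) = ((v 1 : ℤ) : ZMod M) * (((γ 0 0 : ℤ) : ZMod M) *
            ((γ 1 1 : ℤ) : ZMod M)) := by rw [hdet', mul_one]
        _ = (((v 1 : ℤ) : ZMod M) * ((γ 1 1 : ℤ) : ZMod M)) * ((γ 0 0 : ℤ) : ZMod M) := by ring
        _ = 0 := by rw [h, zero_mul]
    rw [if_neg h1, if_neg h2]
    ring

theorem eisF_slash {γ : SL(2, ℤ)} (hγ : ((γ 0 1 : ℤ) : ZMod M) = 0) (w : ℕ) :
    eisF M psi w ∣[(w : ℤ)] γ = psi ((γ 1 1 : ℤ) : ZMod M) • eisF M psi w := by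
  have hinv : ((γ⁻¹ : SL(2, ℤ)) : Matrix (Fin 2) (Fin 2) ℤ) = !![γ 1 1, -γ 0 1; -γ 1 0, γ 0 0] := by
    rw [Matrix.SpecialLinearGroup.coe_inv, Matrix.adjugate_fin_two]
  have h01 : (((γ⁻¹ : SL(2, ℤ)) 0 1 : ℤ) : ZMod M) = 0 := by
    have : (γ⁻¹ : SL(2, ℤ)) 0 1 = -γ 0 1 := by
      change ((γ⁻¹ : SL(2, ℤ)) : Matrix (Fin 2) (Fin 2) ℤ) 0 1 = _
      rw [hinv]; simp
    rw [this]; push_cast; rw [hγ, neg_zero]
  have h00 : (γ⁻¹ : SL(2, ℤ)) 0 0 = γ 1 1 := by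
    change ((γ⁻¹ : SL(2, ℤ)) : Matrix (Fin 2) (Fin 2) ℤ) 0 0 = _
    rw [hinv]; simp
  rw [eisF, latSum_slash]
  ext z
  simp only [latSum, Pi.smul_apply, smul_eq_mul]
  rw [← tsum_mul_left]
  refine tsum_congr fun v => ?_
  rw [chiW_vecMul M psi h01 v, h00]
  ring


omit [NeZero M] in
theorem eisCoeff_zero (w : ℕ) : eisCoeff M psi w 0 = 0 := by
  simp [eisCoeff]

omit [NeZero M] in
theorem norm_eisCoeff_le {w : ℕ} (hw : 1 ≤ w) (n : ℕ) : ‖eisCoeff M psi w n‖ ≤ (n : ℝ) ^ w := by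
  have hw' : (n : ℝ) ^ w = (n : ℝ) ^ (w - 1 + 1) := by congr 1; omega
  calc ‖eisCoeff M psi w n‖ ≤ ∑ c ∈ n.divisors, ‖psi (c : ZMod M) * ((n / c : ℕ) : ℂ) ^ (w - 1)‖ :=
        norm_sum_le _ _
    _ ≤ ∑ _c ∈ n.divisors, (n : ℝ) ^ (w - 1) := by
        refine Finset.sum_le_sum fun c hc => ?_
        rw [norm_mul, norm_pow, Complex.norm_natCast]
        calc ‖psi (c : ZMod M)‖ * ((n / c : ℕ) : ℝ) ^ (w - 1)
            ≤ 1 * ((n / c : ℕ) : ℝ) ^ (w - 1) := by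
              gcongr
              exact DirichletCharacter.norm_le_one psi _
          _ ≤ (n : ℝ) ^ (w - 1) := by
              rw [one_mul]
              gcongr
              exact_mod_cast Nat.div_le_self n c
    _ = (n.divisors.card : ℝ) * (n : ℝ) ^ (w - 1) := by
        rw [Finset.sum_const, nsmul_eq_mul]
    _ ≤ (n : ℝ) * (n : ℝ) ^ (w - 1) := by
        gcongr
        exact_mod_cast Nat.card_divisors_le_self n
    _ = (n : ℝ) ^ w := by
        rw [hw', pow_succ]; exact mul_comm _ _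

omit [NeZero M] in
theorem eisCoeff_isBigO {w : ℕ} (hw : 1 ≤ w) :
    (fun n : ℕ => eisCoeff M psi w n) =O[atTop] fun n : ℕ => ((n : ℝ) ^ w : ℝ) := by
  refine Asymptotics.IsBigO.of_bound 1 (Eventually.of_forall fun n => ?_)
  rw [one_mul, Real.norm_of_nonneg (by positivity)]
  exact norm_eisCoeff_le M psi hw n

/-- the `q`-series in the variable `e(z / M)` is holomorphic -/
theorem differentiableOn_qSeries {w : ℕ} (hw : 1 ≤ w) :
    DifferentiableOn ℂ (fun z : ℂ => ∑' n : ℕ, eisCoeff M psi w n * cexp (2 * π * I * z / M) ^ n)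
      {z : ℂ | 0 < z.im} := by
  have hp : (0 : ℝ) < M := by exact_mod_cast NeZero.pos M
  have h := summableLocallyUniformlyOn_iteratedDerivWithin_smul_cexp 0 w hp
    (eisCoeff_isBigO M psi hw)
  have h2 := h.differentiableOn isOpen_upperHalfPlaneSet (fun n r hr => ?_)
  · refine h2.congr fun z hz => ?_
    refine tsum_congr fun n => ?_
    simp [iteratedDerivWithin_zero]
  · simp only [iteratedDerivWithin_zero]
    fun_prop

theorem summable_qSeries {w : ℕ} (hw : 1 ≤ w) (z : ℍ) :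
    Summable fun n : ℕ => eisCoeff M psi w n * cexp (2 * π * I * z / M) ^ n := by
  have hq := norm_qM_lt_one M z
  refine Summable.of_norm_bounded
    (summable_norm_pow_mul_geometric_of_norm_lt_one w hq) (fun n => ?_)
  rw [norm_mul, norm_mul, norm_pow, norm_pow, Complex.norm_natCast]
  gcongr
  exact norm_eisCoeff_le M psi hw n

theorem eisF_eq_nat (hM : 1 < M) {w : ℕ} (hw : 3 ≤ w) (hpar : psi (-1) = (-1) ^ w) (z : ℍ) :
    eisF M psi w z = 2 * (((M : ℂ) ^ w)⁻¹ * ((-2 * π * I) ^ w / (w - 1)!)) *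
      ∑' n : ℕ, eisCoeff M psi w n * cexp (2 * π * I * z / M) ^ n := by
  rw [eisF_eq M psi hM hw hpar z]
  congr 1
  exact tsum_pnat_eq_tsum_of_eq_zero
    (f := fun n : ℕ => eisCoeff M psi w n * cexp (2 * π * I * z / M) ^ n)
    (by simp [eisCoeff_zero])

theorem eisF_mdiff (hM : 1 < M) {w : ℕ} (hw : 3 ≤ w) (hpar : psi (-1) = (-1) ^ w) :
    MDiff (eisF M psi w) := by
  rw [UpperHalfPlane.mdifferentiable_iff]
  have h := (differentiableOn_qSeries M psi (w := w) (by omega)).const_mul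
    (2 * (((M : ℂ) ^ w)⁻¹ * ((-2 * π * I) ^ w / (w - 1)!)))
  refine h.congr fun z hz => ?_
  rw [Function.comp_apply, UpperHalfPlane.ofComplex_apply_of_im_pos hz,
    eisF_eq_nat M psi hM hw hpar]


/-- the matrix `diag(M, 1)` -/
def diagM : GL (Fin 2) ℝ :=
  Matrix.GeneralLinearGroup.mkOfDetNeZero !![(M : ℝ), 0; 0, 1]
    (by simp [Matrix.det_fin_two_of, NeZero.ne])

theorem diagM_val : (diagM M : Matrix (Fin 2) (Fin 2) ℝ) = !![(M : ℝ), 0; 0, 1] := rfl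

theorem diagM_det : (diagM M).det.val = M := by
  rw [Matrix.GeneralLinearGroup.val_det_apply, diagM_val, Matrix.det_fin_two_of]
  simp

theorem diagM_det_pos : 0 < (diagM M).det.val := by
  rw [diagM_det]
  exact Nat.cast_pos.mpr (NeZero.pos M)

theorem coe_diagM_smul (z : ℍ) : ((diagM M • z : ℍ) : ℂ) = M * z := by
  rw [UpperHalfPlane.coe_smul_of_det_pos (diagM_det_pos M)]
  simp [num, denom, diagM_val]

/-- `M^(w-1) F(M z)` as a slash -/
def eisG0 (w : ℕ) : ℍ → ℂ := eisF M psi w ∣[(w : ℤ)] diagM M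

theorem eisG0_apply (w : ℕ) (z : ℍ) :
    eisG0 M psi w z = eisF M psi w (diagM M • z) * (M : ℂ) ^ ((w : ℤ) - 1) := by
  rw [eisG0, ModularForm.slash_apply]
  have hσ : ∀ x : ℂ, σ (diagM M) x = x := by
    intro x
    have h := diagM_det_pos M
    rw [σ, if_pos h]
    rfl
  have hden : denom (diagM M) z = 1 := by
    simp [denom, diagM_val]
  rw [hσ, hden, diagM_det, _root_.one_zpow, mul_one, abs_of_nonneg (Nat.cast_nonneg M)]
  simp

theorem eisG0_slash (w : ℕ) (γ : SL(2, ℤ)) :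
    eisG0 M psi w ∣[(w : ℤ)] γ =
      eisF M psi w ∣[(w : ℤ)] (diagM M * (γ : GL (Fin 2) ℝ)) := by
  rw [eisG0, ModularForm.SL_slash, ← SlashAction.slash_mul]

theorem smul_slash_diagM (c : ℂ) (f : ℍ → ℂ) (k : ℤ) :
    (c • f) ∣[k] diagM M = c • (f ∣[k] diagM M) := by
  rw [ModularForm.smul_slash]
  have h := diagM_det_pos M
  rw [σ, if_pos h]
  rfl

/-- `Γ₀(M)` acts on `eisG0` through `ψ(d)` -/
theorem eisG0_slash_of_mem_Gamma0 (w : ℕ) {γ : SL(2, ℤ)} (hγ : γ ∈ Gamma0 M) :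
    eisG0 M psi w ∣[(w : ℤ)] γ = psi ((γ 1 1 : ℤ) : ZMod M) • eisG0 M psi w := by
  rw [Gamma0_mem] at hγ
  obtain ⟨c', hc'⟩ : (M : ℤ) ∣ γ 1 0 := (ZMod.intCast_zmod_eq_zero_iff_dvd _ _).mp hγ
  have hdet := γ.det_coe
  rw [Matrix.det_fin_two] at hdet
  have hγ''det : (!![γ 0 0, (M : ℤ) * γ 0 1; c', γ 1 1] : Matrix (Fin 2) (Fin 2) ℤ).det = 1 := by
    rw [Matrix.det_fin_two_of]
    rw [hc'] at hdet
    linear_combination hdet
  set γ'' : SL(2, ℤ) := ⟨!![γ 0 0, (M : ℤ) * γ 0 1; c', γ 1 1], hγ''det⟩ with hγ''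
  have e00 : (γ'' : Matrix (Fin 2) (Fin 2) ℤ) 0 0 = γ 0 0 := rfl
  have e01 : (γ'' : Matrix (Fin 2) (Fin 2) ℤ) 0 1 = (M : ℤ) * γ 0 1 := rfl
  have e10 : (γ'' : Matrix (Fin 2) (Fin 2) ℤ) 1 0 = c' := rfl
  have e11 : (γ'' : Matrix (Fin 2) (Fin 2) ℤ) 1 1 = γ 1 1 := rfl
  have hcomm : diagM M * (γ : GL (Fin 2) ℝ) = (γ'' : GL (Fin 2) ℝ) * diagM M := by
    apply Units.ext
    ext i j
    fin_cases i <;> fin_cases j <;>
      simp [diagM_val, Matrix.mul_apply, Fin.sum_univ_two, e00, e01, e10, e11, hc', mul_comm]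
  have h01 : (((γ'' 0 1 : ℤ)) : ZMod M) = 0 := by
    rw [e01]; simp
  have h11 : γ'' 1 1 = γ 1 1 := e11
  rw [eisG0_slash, hcomm, SlashAction.slash_mul, ← ModularForm.SL_slash,
    eisF_slash M psi h01 w, h11, smul_slash_diagM, eisG0]

/-- the integer matrix of `diag(M,1) * γ` -/
def dMat (γ : SL(2, ℤ)) : Matrix (Fin 2) (Fin 2) ℤ :=
  !![(M : ℤ) * γ 0 0, (M : ℤ) * γ 0 1; γ 1 0, γ 1 1]

theorem dMat_spec (γ : SL(2, ℤ)) :
    ((diagM M * (γ : GL (Fin 2) ℝ) : GL (Fin 2) ℝ) : Matrix (Fin 2) (Fin 2) ℝ) =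
      (dMat M γ).map (Int.cast : ℤ → ℝ) := by
  ext i j
  fin_cases i <;> fin_cases j <;>
    simp [dMat, diagM_val, Matrix.mul_apply, Fin.sum_univ_two]

theorem diagM_mul_det_pos (γ : SL(2, ℤ)) :
    0 < (diagM M * (γ : GL (Fin 2) ℝ)).det.val := by
  rw [map_mul, Units.val_mul]
  have : ((γ : GL (Fin 2) ℝ)).det.val = 1 := by simp
  rw [this, mul_one]
  exact diagM_det_pos M

/-- all conjugates of `eisG0` are bounded at `i∞` -/
theorem eisG0_slash_isBoundedAtImInfty {w : ℕ} (hw : 3 ≤ w) (γ : SL(2, ℤ)) :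
    IsBoundedAtImInfty (eisG0 M psi w ∣[(w : ℤ)] γ) := by
  obtain ⟨γ', u, a, b, d, ha, hd, had, hu, hg⟩ :=
    Fermat.Agent.S24.exists_SL2_mul_upper_GL _ (dMat M γ) (dMat_spec M γ)
      (diagM_mul_det_pos M γ)
  have h10 : u 1 0 = 0 := by
    have := congrFun (congrFun hu 1) 0
    simpa using this
  rw [eisG0_slash, hg, SlashAction.slash_mul, ← ModularForm.SL_slash, eisF, latSum_slash]
  refine UpperHalfPlane.IsBoundedAtImInfty.slash (w : ℤ) h10 ?_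
  exact isBoundedAtImInfty_latSum (fun v => norm_chiW_le M psi _) (by exact_mod_cast hw)

/-- the normalising constant `2 M^(-w) (-2πi)^w / (w-1)!` -/
def eisK (w : ℕ) : ℂ := 2 * (((M : ℂ) ^ w)⁻¹ * ((-2 * π * I) ^ w / (w - 1)!))

theorem eisK_ne_zero (w : ℕ) : eisK M w ≠ 0 := by
  have hM : (M : ℂ) ≠ 0 := by exact_mod_cast NeZero.ne M
  have hpi : (-2 * π * I : ℂ) ≠ 0 := by
    simp [Real.pi_ne_zero, Complex.I_ne_zero]
  have hfac : (((w - 1)! : ℕ) : ℂ) ≠ 0 := by exact_mod_cast Nat.factorial_ne_zero _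
  unfold eisK
  refine mul_ne_zero two_ne_zero (mul_ne_zero (inv_ne_zero (pow_ne_zero _ hM)) ?_)
  exact div_ne_zero (pow_ne_zero _ hpi) hfac

/-- the Eisenstein series with character, normalised -/
def eisG (w : ℕ) : ℍ → ℂ := (eisK M w * (M : ℂ) ^ ((w : ℤ) - 1))⁻¹ • eisG0 M psi w

theorem eisG_hasSum (hM : 1 < M) {w : ℕ} (hw : 3 ≤ w) (hpar : psi (-1) = (-1) ^ w) (τ : ℍ) :
    HasSum (fun n : ℕ => eisCoeff M psi w n • Function.Periodic.qParam 1 τ ^ n)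
      (eisG M psi w τ) := by
  have hMc : (M : ℂ) ≠ 0 := by exact_mod_cast NeZero.ne M
  have hq : cexp (2 * π * I * ((diagM M • τ : ℍ) : ℂ) / M) = Function.Periodic.qParam 1 τ := by
    rw [coe_diagM_smul, Function.Periodic.qParam]
    congr 1
    field_simp
    simp
  have hs := (summable_qSeries M psi (w := w) (by omega) (diagM M • τ)).hasSum
  have hval : eisG M psi w τ =
      ∑' n : ℕ, eisCoeff M psi w n * cexp (2 * π * I * ((diagM M • τ : ℍ) : ℂ) / M) ^ n := by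
    rw [eisG, Pi.smul_apply, smul_eq_mul, eisG0_apply, eisF_eq_nat M psi hM hw hpar]
    have hK := eisK_ne_zero M w
    have hMw : (M : ℂ) ^ ((w : ℤ) - 1) ≠ 0 := zpow_ne_zero _ hMc
    change (eisK M w * (M : ℂ) ^ ((w : ℤ) - 1))⁻¹ * (eisK M w * _ * _) = _
    field_simp
  rw [hval]
  simp only [hq] at hs ⊢
  simpa [smul_eq_mul] using hs

theorem eisG_mdiff (hM : 1 < M) {w : ℕ} (hw : 3 ≤ w) (hpar : psi (-1) = (-1) ^ w) :
    MDiff (eisG M psi w) := by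
  have h1 : MDiff (eisG0 M psi w) := (eisF_mdiff M psi hM hw hpar).slash (w : ℤ) _
  exact h1.const_smul _

theorem eisG_slash_of_mem_Gamma0 (w : ℕ) {γ : SL(2, ℤ)} (hγ : γ ∈ Gamma0 M) :
    eisG M psi w ∣[(w : ℤ)] γ = psi ((γ 1 1 : ℤ) : ZMod M) • eisG M psi w := by
  rw [eisG, ModularForm.SL_smul_slash, eisG0_slash_of_mem_Gamma0 M psi w hγ, smul_comm]

theorem eisG_slash_isBoundedAtImInfty {w : ℕ} (hw : 3 ≤ w) (γ : SL(2, ℤ)) :
    IsBoundedAtImInfty (eisG M psi w ∣[(w : ℤ)] γ) := by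
  rw [eisG, ModularForm.SL_smul_slash]
  exact (eisG0_slash_isBoundedAtImInfty M psi hw γ).const_smul_left _

/-- **Eisenstein series with character.** -/
theorem main (M : ℕ) [NeZero M] (psi : DirichletCharacter ℂ M) (hpsi : psi ≠ 1)
    (w : ℕ) (hw : 3 ≤ w) (hpar : psi (-1) = (-1) ^ w) :
    ∃ G : ℍ → ℂ, S20.Free.IsMF (Gamma1 M) w G ∧
      (∀ g ∈ Gamma0 M, G ∣[(w : ℤ)] g = psi ((g 1 1 : ℤ) : ZMod M) • G) ∧
      ∀ n : ℕ, ModularFormClass.qCoeff G n =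
        ∑ c ∈ n.divisors, psi (c : ZMod M) * ((n / c : ℕ) : ℂ) ^ (w - 1) := by
  have hM : 1 < M := by
    by_contra h
    have h1 : M = 1 := by
      have := NeZero.pos M
      omega
    exact hpsi (DirichletCharacter.level_one' psi h1)
  have hMF : S20.Free.IsMF (Gamma1 M) w (eisG M psi w) := by
    rw [S20.Free.isMF_iff]
    refine ⟨eisG_mdiff M psi hM hw hpar, fun γ hγ => ?_,
      fun γ => eisG_slash_isBoundedAtImInfty M psi hw γ⟩
    rw [eisG_slash_of_mem_Gamma0 M psi w (Gamma1_in_Gamma0 M hγ)]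
    have h11 := ((Gamma1_mem M γ).mp hγ).2.1
    rw [h11, map_one, one_smul]
  refine ⟨eisG M psi w, hMF, fun g hg => eisG_slash_of_mem_Gamma0 M psi w hg, fun n => ?_⟩
  obtain ⟨F, hF⟩ := hMF
  have hΓ : (1 : ℝ) ∈ ((Gamma1 M : Subgroup SL(2, ℤ)) : Subgroup (GL (Fin 2) ℝ)).strictPeriods := by
    simp [strictPeriods_Gamma1]
  have key := ModularFormClass.qExpansion_coeff_unique (c := eisCoeff M psi w) one_pos hΓ (f := F)
    (fun τ => by rw [hF]; exact eisG_hasSum M psi hM hw hpar τ) n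
  rw [ModularFormClass.qCoeff, ← hF, ← key, eisCoeff]

end

end Fermat.Agent.S48x.GS1.EisChar

namespace Fermat.Agent.S48x.GS1

/-- **Eisenstein series with character** (GS1-(E)): for a non-trivial Dirichlet character `ψ`
mod `M` and a weight `w ≥ 3` with `ψ(-1) = (-1)^w`, the series
`∑_{n ≥ 1} (∑_{c ∣ n} ψ(c) (n/c)^(w-1)) q^n` is a modular form of weight `w` on `Γ₁(M)` with
nebentypus `ψ` on `Γ₀(M)`. -/
theorem exists_eisChar (M : ℕ) [NeZero M] (psi : DirichletCharacter ℂ M) (hpsi : psi ≠ 1)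
    (w : ℕ) (hw : 3 ≤ w) (hpar : psi (-1) = (-1) ^ w) :
    ∃ G : ℍ → ℂ, S20.Free.IsMF (Gamma1 M) w G ∧
      (∀ g ∈ Gamma0 M, G ∣[(w : ℤ)] g = psi ((g 1 1 : ℤ) : ZMod M) • G) ∧
      ∀ n : ℕ, ModularFormClass.qCoeff G n =
        ∑ c ∈ n.divisors, psi (c : ZMod M) * ((n / c : ℕ) : ℂ) ^ (w - 1) :=
  EisChar.main M psi hpsi w hw hpar

end Fermat.Agent.S48x.GS1
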