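import Fermat.Agent.S48x.GS1.Defs
import Fermat.Agent.S48x.GS1.EisChar

/-!
# P-S48 GS1-(E): `EisCharStatement` (helper80)

One-line wrapper: the Eisenstein series with character `exists_eisChar` of `EisChar.lean` in the
shape `EisCharStatement` of `GS1/Defs.lean`.
-/

set_option autoImplicit false

namespace Fermat.Agent.S48x.GS1

/-- The Eisenstein series with character, in the shape expected by `GS1/Conj.lean`. -/
theorem eisCharStatement : EisCharStatement :=
  fun M _ ψ hψ w hw hpar => exists_eisChar M ψ hψ w hw hpar

end Fermat.Agent.S48x.GS1
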