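import Mathlib
import Fermat.Agent.S23.Descent

/-!
# P-S48, GS1-(X): automorphisms of `ℂ`

* `exists_ringEquiv_extends` : every embedding `τ : K → ℂ` of a subfield `K ⊆ ℂ` algebraic over `ℚ`
  extends to an automorphism of `ℂ`;
* `exists_ringEquiv_apply_ne` : for a subfield `K ⊆ ℂ` and `x ∉ K` there is an automorphism of `ℂ`
  fixing `K` pointwise and moving `x`;
* `isAlgebraic_of_finite_orbit` : a complex number with finite orbit under `Aut(ℂ)` is algebraic.

Everything is proved for an arbitrary algebraically closed field of characteristic zero and then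
specialised to `ℂ`.
-/

set_option autoImplicit false

noncomputable section

namespace Fermat.Agent.S48x.GS1

open MvPolynomial IntermediateField

section General

variable {R Ω : Type*} [Field R] [Field Ω] [Algebra R Ω] [IsAlgClosed Ω]

/-- An automorphism of a subfield of an algebraically closed field extends to the whole field. -/
theorem exists_ringEquiv_extending_ringEquiv (f : R ≃+* R) :
    ∃ σ : Ω ≃+* Ω, ∀ r : R, σ (algebraMap R Ω r) = algebraMap R Ω (f r) := by
  obtain ⟨ι, v, hv⟩ := exists_isTranscendenceBasis' R Ω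
  obtain ⟨σ, hσ⟩ := Fermat.Agent.S23.exists_ringEquiv_of_transcendenceBasis (R := R) v hv
    (MvPolynomial.mapEquiv ι f)
  refine ⟨σ, fun r => ?_⟩
  have := hσ (C r)
  simp only [aeval_C, mapEquiv_apply, map_C] at this
  exact this

/-- A transcendental element is moved to `x + 1` by an automorphism fixing the base field. -/
theorem exists_ringEquiv_shift (x : Ω) (hx : Transcendental R x) :
    ∃ σ : Ω ≃+* Ω, (∀ r : R, σ (algebraMap R Ω r) = algebraMap R Ω r) ∧ σ x = x + 1 := by
  have hind : AlgebraicIndepOn R id ({x} : Set Ω) := by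
    have : AlgebraicIndependent R (fun i : ({x} : Set Ω) => id (i : Ω)) := by
      rw [algebraicIndependent_unique_type_iff]
      simpa using hx
    exact this
  obtain ⟨t, hst, ht⟩ := exists_isTranscendenceBasis_superset hind
  obtain ⟨σ, hσ⟩ := Fermat.Agent.S23.exists_ringEquiv_of_transcendenceBasis (R := R)
    ((↑) : t → Ω) ht (Fermat.Agent.S23.shiftEquiv t R).toRingEquiv
  refine ⟨σ, fun r => ?_, ?_⟩
  · have := hσ (C r)
    have hC : (Fermat.Agent.S23.shiftEquiv t R) (C r) = C r :=
      (Fermat.Agent.S23.shiftEquiv t R).commutes r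
    simpa only [aeval_C, AlgEquiv.coe_ringEquiv, hC] using this
  · have hxt : x ∈ t := hst rfl
    have := hσ (X ⟨x, hxt⟩)
    simpa only [aeval_X, AlgEquiv.coe_ringEquiv,
      Fermat.Agent.S23.shiftEquiv_X, map_add, map_one] using this

end General

section Fixing

variable {Ω : Type*} [Field Ω] [IsAlgClosed Ω] [CharZero Ω]

/-- For a subfield `K` of an algebraically closed field `Ω` of characteristic zero and `x ∉ K`
there is an automorphism of `Ω` fixing `K` pointwise and moving `x`. -/
theorem exists_ringEquiv_fixing_apply_ne (K : Subfield Ω) {x : Ω} (hx : x ∉ K) :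
    ∃ σ : Ω ≃+* Ω, (∀ y ∈ K, σ y = y) ∧ σ x ≠ x := by
  let A : IntermediateField K Ω := algebraicClosure K Ω
  by_cases hxa : IsAlgebraic K x
  · -- Galois theory of `A / K`
    have hxA : x ∈ A := mem_algebraicClosure_iff.mpr hxa
    have hnot : (⟨x, hxA⟩ : A) ∉ Set.range (algebraMap K A) := by
      rintro ⟨r, hr⟩
      apply hx
      have h1 : (algebraMap A Ω) (algebraMap K A r) = x := by rw [hr]; rfl
      rw [← IsScalarTower.algebraMap_apply] at h1
      rw [← h1]
      exact r.2
    rw [InfiniteGalois.mem_range_algebraMap_iff_fixed, not_forall] at hnot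
    obtain ⟨f, hf⟩ := hnot
    obtain ⟨σ, hσ⟩ := exists_ringEquiv_extending_ringEquiv (R := A) (Ω := Ω) f.toRingEquiv
    refine ⟨σ, fun y hy => ?_, fun h => hf ?_⟩
    · have h1 := hσ (algebraMap K A ⟨y, hy⟩)
      have h2 : f.toRingEquiv (algebraMap K A ⟨y, hy⟩) = algebraMap K A ⟨y, hy⟩ :=
        f.commutes ⟨y, hy⟩
      rw [h2] at h1
      exact h1
    · apply Subtype.ext
      have h1 := hσ ⟨x, hxA⟩
      have h3 : (algebraMap A Ω) (⟨x, hxA⟩ : A) = x := rfl
      rw [h3, h] at h1
      exact h1.symm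
  · -- `x` is transcendental over `A`
    have hxt : Transcendental A x := by
      intro h
      exact hxa (IsAlgebraic.restrictScalars K h)
    obtain ⟨σ, hσ, hσx⟩ := exists_ringEquiv_shift (R := A) x hxt
    refine ⟨σ, fun y hy => ?_, ?_⟩
    · exact hσ (algebraMap K A ⟨y, hy⟩)
    · rw [hσx]
      simp

/-- An element with finite orbit under the automorphism group is algebraic over the prime
field. -/
theorem isAlgebraic_of_finite_orbit_general {x : Ω}
    (h : (Set.range fun σ : Ω ≃+* Ω => σ x).Finite) : IsAlgebraic ℚ x := by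
  by_contra hx
  obtain ⟨σ, -, hσx⟩ := exists_ringEquiv_shift (R := ℚ) x hx
  have hpow : ∀ n : ℕ, (σ ^ n) x = x + n := by
    intro n
    induction n with
    | zero => simp
    | succ n ih =>
      rw [pow_succ', RingAut.mul_apply, ih, map_add, hσx, map_natCast]
      push_cast
      ring
  have hinj : Function.Injective (fun n : ℕ => x + (n : Ω)) := by
    intro a b hab
    have : (a : Ω) = b := add_left_cancel hab
    exact_mod_cast this
  have hinf : (Set.range fun σ : Ω ≃+* Ω => σ x).Infinite :=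
    Set.infinite_of_injective_forall_mem hinj (fun n => ⟨σ ^ n, hpow n⟩)
  exact hinf h

end Fixing

section Extending

variable {Ω : Type*} [Field Ω] [IsAlgClosed Ω] [CharZero Ω]

/-- Every embedding into `Ω` of a subfield `K ⊆ Ω` algebraic over `ℚ` extends to an automorphism
of `Ω`. -/
theorem exists_ringEquiv_extending_ringHom (K : Subfield Ω) (hK : ∀ y ∈ K, IsAlgebraic ℚ y)
    (τ : K →+* Ω) : ∃ σ : Ω ≃+* Ω, ∀ y : K, σ y = τ y := by
  let A : IntermediateField ℚ Ω := algebraicClosure ℚ Ω
  have hAcl : IsAlgClosure ℚ A := algebraicClosure.isAlgClosure ℚ Ω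
  have hAc : IsAlgClosed A := hAcl.isAlgClosed
  have hA1 : ∀ y : K, K.subtype y ∈ A := fun y => mem_algebraicClosure_iff.mpr (hK y y.2)
  have hA2 : ∀ y : K, τ y ∈ A := by
    intro y
    obtain ⟨p, hp0, hp⟩ := hK y y.2
    refine mem_algebraicClosure_iff.mpr ⟨p, hp0, ?_⟩
    have key : ∀ g : K →+* Ω, Polynomial.aeval (g y) p = g (Polynomial.aeval y p) := fun g =>
      Polynomial.aeval_algHom_apply g.toRatAlgHom y p
    have h1 : Polynomial.aeval (y : Ω) p = K.subtype (Polynomial.aeval y p) := key K.subtype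
    have h2 : Polynomial.aeval (τ y) p = τ (Polynomial.aeval y p) := key τ
    rw [h1] at hp
    have h3 : Polynomial.aeval y p = 0 := K.subtype_injective (by rw [hp, map_zero])
    rw [h2, h3, map_zero]
  let i1 : K →+* A := K.subtype.codRestrict A hA1
  let i2 : K →+* A := τ.codRestrict A hA2
  -- two structures of algebraic closure of `K` on `A`
  let alg1 : Algebra K A := i1.toAlgebra
  let alg2 : Algebra K A := i2.toAlgebra
  have tower1 : @IsScalarTower ℚ K A _ alg1.toSMul _ :=
    @IsScalarTower.of_algebraMap_eq ℚ K A _ _ _ _ alg1 _ (fun q => (map_ratCast i1 q).symm)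
  have tower2 : @IsScalarTower ℚ K A _ alg2.toSMul _ :=
    @IsScalarTower.of_algebraMap_eq ℚ K A _ _ _ _ alg2 _ (fun q => (map_ratCast i2 q).symm)
  have hinj : Function.Injective (algebraMap ℚ K) := (algebraMap ℚ K).injective
  have algc1 : @Algebra.IsAlgebraic K A _ _ alg1 :=
    @Algebra.IsAlgebraic.extendScalars ℚ K A _ _ _ _ alg1 _ tower1 hinj _
  have algc2 : @Algebra.IsAlgebraic K A _ _ alg2 :=
    @Algebra.IsAlgebraic.extendScalars ℚ K A _ _ _ _ alg2 _ tower2 hinj _
  have tf1 : @Module.IsTorsionFree K A _ _ alg1.toModule :=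
    (@Module.isTorsionFree_iff_algebraMap_injective K A _ _ alg1 _ _).mpr i1.injective
  have tf2 : @Module.IsTorsionFree K A _ _ alg2.toModule :=
    (@Module.isTorsionFree_iff_algebraMap_injective K A _ _ alg2 _ _).mpr i2.injective
  have cl1 : @IsAlgClosure K A _ _ alg1 tf1 := @IsAlgClosure.mk K A _ _ alg1 tf1 hAc algc1
  have cl2 : @IsAlgClosure K A _ _ alg2 tf2 := @IsAlgClosure.mk K A _ _ alg2 tf2 hAc algc2
  let e : @AlgEquiv K A A _ _ _ alg1 alg2 :=
    @IsAlgClosure.equiv K _ _ A A _ _ alg2 tf2 cl2 alg1 tf1 cl1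
  have he : ∀ y : K, e (i1 y) = i2 y := fun y =>
    @AlgEquiv.commutes K A A _ _ _ alg1 alg2 e y
  obtain ⟨σ, hσ⟩ := exists_ringEquiv_extending_ringEquiv (R := A) (Ω := Ω)
    (@AlgEquiv.toRingEquiv K A A _ _ _ alg1 alg2 e)
  refine ⟨σ, fun y => ?_⟩
  have h1 := hσ (i1 y)
  have h2 : (@AlgEquiv.toRingEquiv K A A _ _ _ alg1 alg2 e) (i1 y) = i2 y := he y
  rw [h2] at h1
  exact h1

end Extending

/-! ### The statements for `ℂ` -/

theorem exists_ringEquiv_extends (K : Subfield ℂ) (hK : ∀ y ∈ K, IsAlgebraic ℚ y)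
    (τ : K →+* ℂ) : ∃ σ : ℂ ≃+* ℂ, ∀ y : K, σ y = τ y :=
  exists_ringEquiv_extending_ringHom K hK τ

set_option linter.unusedVariables false in
theorem exists_ringEquiv_apply_ne (K : Subfield ℂ) (hK : ∀ y ∈ K, IsAlgebraic ℚ y) {x : ℂ}
    (hx : x ∉ K) : ∃ σ : ℂ ≃+* ℂ, (∀ y ∈ K, σ y = y) ∧ σ x ≠ x :=
  exists_ringEquiv_fixing_apply_ne K hx

theorem isAlgebraic_of_finite_orbit {x : ℂ}
    (h : (Set.range fun σ : ℂ ≃+* ℂ => σ x).Finite) : IsAlgebraic ℚ x :=
  isAlgebraic_of_finite_orbit_general h

end Fermat.Agent.S48x.GS1
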