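import Mathlib
import Fermat.Agent.S48x.GS1.Defs
import Fermat.Agent.S48x.Hecke1.Diamond

/-!
# P-S48, GS1-(C): decomposition of `S_k(Γ₁(M))` into nebentypus components  (helper62)

* `exists_char_decomp` : every cusp form on `Γ₁(M)` is a sum over the Dirichlet characters `χ` mod
  `M` of cusp forms on `Γ₁(M)` with nebentypus `χ`;
* `char_decomp_unique` : the components are unique (Dedekind independence of characters);
* `hasChar_one_iff`, `HasChar.isCF_Gamma0`, `HasChar.eval_neg_one`.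
-/

set_option autoImplicit false
set_option linter.unusedSectionVars false

open UpperHalfPlane ModularForm CongruenceSubgroup Matrix.SpecialLinearGroup
open scoped MatrixGroups ModularForm Manifold

namespace Fermat.Agent.S48x.GS1

open Fermat.Agent.S20.Free Fermat.Agent.S48x.Hecke1 Fermat.Agent.S48x.Nebentypus

variable {M : ℕ} [NeZero M] {k : ℤ}

/-- The lower right entry of an element of `Γ₀(M)` is a unit modulo `M`. -/
theorem isUnit_lowerRight {γ : SL(2, ℤ)} (hγ : γ ∈ Gamma0 M) :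
    IsUnit (((γ 1 1 : ℤ)) : ZMod M) :=
  IsUnit.of_mul_eq_one _ (by rw [mul_comm]; exact upperLeft_mul_lowerRight hγ)

/-- The unit of `ZMod M` given by the lower right entry of `γ ∈ Γ₀(M)`. -/
noncomputable def lowerRightUnit {γ : SL(2, ℤ)} (hγ : γ ∈ Gamma0 M) : (ZMod M)ˣ :=
  (isUnit_lowerRight hγ).unit

@[simp] theorem coe_lowerRightUnit {γ : SL(2, ℤ)} (hγ : γ ∈ Gamma0 M) :
    ((lowerRightUnit hγ : (ZMod M)ˣ) : ZMod M) = ((γ 1 1 : ℤ) : ZMod M) :=
  IsUnit.unit_spec _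

theorem HasChar.add {χ : DirichletCharacter ℂ M} {f g : ℍ → ℂ} (hf : HasChar M k χ f)
    (hg : HasChar M k χ g) : HasChar M k χ (f + g) := by
  intro γ hγ
  rw [SlashAction.add_slash, hf γ hγ, hg γ hγ, smul_add]

theorem HasChar.smul {χ : DirichletCharacter ℂ M} {f : ℍ → ℂ} (hf : HasChar M k χ f) (c : ℂ) :
    HasChar M k χ (c • f) := by
  intro γ hγ
  rw [ModularForm.SL_smul_slash, hf γ hγ, smul_comm]

theorem HasChar.sub {χ : DirichletCharacter ℂ M} {f g : ℍ → ℂ} (hf : HasChar M k χ f)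
    (hg : HasChar M k χ g) : HasChar M k χ (f - g) := by
  have := hf.add (hg.smul (-1))
  simpa [sub_eq_add_neg] using this

theorem hasChar_one_iff {f : ℍ → ℂ} :
    HasChar M k 1 f ↔ ∀ γ ∈ Gamma0 M, f ∣[k] γ = f := by
  constructor
  · intro h γ hγ
    rw [h γ hγ, MulChar.one_apply (isUnit_lowerRight hγ), one_smul]
  · intro h γ hγ
    rw [h γ hγ, MulChar.one_apply (isUnit_lowerRight hγ), one_smul]

theorem HasChar.isCF_Gamma0 {f : ℍ → ℂ} (hf : IsCF (Gamma1 M) k f) (h : HasChar M k 1 f) :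
    IsCF (Gamma0 M) k f := by
  obtain ⟨h1, -, h3⟩ := isCF_iff.mp hf
  exact isCF_iff.mpr ⟨h1, hasChar_one_iff.mp h, h3⟩

theorem HasChar.eval_neg_one {χ : DirichletCharacter ℂ M} {f : ℍ → ℂ} (hf : f ≠ 0)
    (h : HasChar M k χ f) : χ (-1) = (-1) ^ k := by
  obtain ⟨τ, hτ⟩ : ∃ τ, f τ ≠ 0 := by
    by_contra hcon
    push Not at hcon
    exact hf (funext hcon)
  have hmem : (-1 : SL(2, ℤ)) ∈ Gamma0 M := by
    rw [Gamma0_mem]
    simp
  have h1 := congrFun (h (-1) hmem) τ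
  rw [ModularForm.SL_slash_apply] at h1
  have h11 : ((((-1 : SL(2, ℤ)) 1 1 : ℤ)) : ZMod M) = -1 := by simp
  rw [h11] at h1
  have hden : denom ((-1 : SL(2, ℤ)) : GL (Fin 2) ℝ) τ = -1 := by
    simp [denom]
  have hsm : (-1 : SL(2, ℤ)) • τ = τ := by
    rw [ModularGroup.SL_neg_smul, one_smul]
  rw [hsm] at h1
  simp only [Pi.smul_apply, smul_eq_mul] at h1
  have h2 : f τ * (-1 : ℂ) ^ (-k) = χ (-1) * f τ := by
    rw [← h1]
    congr 1
    show (-1 : ℂ) ^ (-k) = denom ((-1 : SL(2, ℤ)) : GL (Fin 2) ℝ) τ ^ (-k)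
    rw [hden]
  have h3 : (-1 : ℂ) ^ (-k) = (-1) ^ k := by
    rw [zpow_neg, ← inv_zpow, inv_neg_one]
  rw [h3] at h2
  have h4 : (χ (-1) - (-1) ^ k) * f τ = 0 := by linear_combination -h2
  rcases mul_eq_zero.mp h4 with h5 | h5
  · linear_combination h5
  · exact absurd h5 hτ

/-- The `χ`-component of a cusp form on `Γ₁(M)`, as a cusp form. -/
noncomputable def charComponent (χ : DirichletCharacter ℂ M) (F : CuspForm (Gamma1 M) k) :
    CuspForm (Gamma1 M) k :=
  ((M.totient : ℂ))⁻¹ • ∑ d : (ZMod M)ˣ, χ ((d⁻¹ : (ZMod M)ˣ) : ZMod M) • diamLin d F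

theorem coe_charComponent (χ : DirichletCharacter ℂ M) (F : CuspForm (Gamma1 M) k) :
    (⇑(charComponent χ F) : ℍ → ℂ) =
      ((M.totient : ℂ))⁻¹ • ∑ d : (ZMod M)ˣ,
        χ ((d⁻¹ : (ZMod M)ˣ) : ZMod M) • (⇑(diamLin d F) : ℍ → ℂ) := by
  ext τ
  simp [charComponent, Finset.sum_apply]

theorem hasChar_charComponent (χ : DirichletCharacter ℂ M) (F : CuspForm (Gamma1 M) k) :
    HasChar M k χ ⇑(charComponent χ F) := by
  intro γ hγ
  set e : (ZMod M)ˣ := lowerRightUnit hγ with he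
  have hslash : ∀ d : (ZMod M)ˣ, (⇑(diamLin d F) : ℍ → ℂ) ∣[k] γ = ⇑(diamLin (d * e) F) := by
    intro d
    have h1 := coe_diamLin_eq d F (diamRep_mem d) (diamRep_lowerRight d)
    have hmem : diamRep d * γ ∈ Gamma0 M := Subgroup.mul_mem _ (diamRep_mem d) hγ
    have h2 := coe_diamLin_eq (d * e) F hmem (by
      rw [lowerRight_mul (diamRep_mem d), diamRep_lowerRight, Units.val_mul, he,
        coe_lowerRightUnit])
    rw [h2, h1, map_mul, SlashAction.slash_mul]
    rfl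
  rw [coe_charComponent, ModularForm.SL_smul_slash, smul_comm]
  congr 1
  rw [SlashAction.sum_slash, Finset.smul_sum]
  have h3 : ∀ d : (ZMod M)ˣ, (χ ((d⁻¹ : (ZMod M)ˣ) : ZMod M) • (⇑(diamLin d F) : ℍ → ℂ)) ∣[k] γ =
      χ ((((d * e)⁻¹ : (ZMod M)ˣ)) : ZMod M) •
        (χ ((γ 1 1 : ℤ) : ZMod M) • (⇑(diamLin (d * e) F) : ℍ → ℂ)) := by
    intro d
    rw [ModularForm.SL_smul_slash, hslash d, smul_smul]
    congr 1
    rw [← coe_lowerRightUnit hγ, ← he, ← map_mul, ← Units.val_mul]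
    congr 2
    rw [mul_inv_rev, mul_comm e⁻¹, mul_assoc, inv_mul_cancel, mul_one]
  simp_rw [h3]
  rw [← Equiv.sum_comp (Equiv.mulRight e)
    (fun d => χ ((γ 1 1 : ℤ) : ZMod M) • χ ((d⁻¹ : (ZMod M)ˣ) : ZMod M) •
      (⇑(diamLin d F) : ℍ → ℂ))]
  refine Finset.sum_congr rfl fun d _ => ?_
  simp only [Equiv.coe_mulRight]
  rw [smul_comm]

theorem sum_charComponent (F : CuspForm (Gamma1 M) k) :
    ∑ χ : DirichletCharacter ℂ M, charComponent χ F = F := by
  have hφ : (M.totient : ℂ) ≠ 0 := by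
    exact_mod_cast (Nat.totient_pos.mpr (Nat.pos_of_ne_zero (NeZero.ne M))).ne'
  unfold charComponent
  rw [← Finset.smul_sum, Finset.sum_comm]
  simp_rw [← Finset.sum_smul]
  have h1 : ∀ d : (ZMod M)ˣ, ∑ χ : DirichletCharacter ℂ M, χ ((d⁻¹ : (ZMod M)ˣ) : ZMod M) =
      if d = 1 then (M.totient : ℂ) else 0 := by
    intro d
    have := DirichletCharacter.sum_characters_eq ℂ (((d⁻¹ : (ZMod M)ˣ)) : ZMod M)
    rw [this]
    congr 1
    rw [eq_iff_iff, Units.val_eq_one, inv_eq_one]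
  simp_rw [h1]
  rw [Finset.sum_eq_single (1 : (ZMod M)ˣ)]
  · rw [if_pos rfl, smul_smul, inv_mul_cancel₀ hφ, one_smul, diamLin_one, LinearMap.id_apply]
  · intro d _ hd
    rw [if_neg hd, zero_smul]
  · intro h
    exact absurd (Finset.mem_univ _) h

/-- **Character decomposition** of `S_k(Γ₁(M))`. -/
theorem exists_char_decomp {f : ℍ → ℂ} (hf : IsCF (Gamma1 M) k f) :
    ∃ c : DirichletCharacter ℂ M → (ℍ → ℂ), (∀ χ, IsCF (Gamma1 M) k (c χ)) ∧
      (∀ χ, HasChar M k χ (c χ)) ∧ f = ∑ χ, c χ := by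
  obtain ⟨F, rfl⟩ := hf
  refine ⟨fun χ => ⇑(charComponent χ F), fun χ => ⟨charComponent χ F, rfl⟩,
    fun χ => hasChar_charComponent χ F, ?_⟩
  have h : (⇑(∑ χ : DirichletCharacter ℂ M, charComponent χ F) : ℍ → ℂ) = ⇑F :=
    congrArg (fun G : CuspForm (Gamma1 M) k => (⇑G : ℍ → ℂ)) (sum_charComponent F)
  rw [← h]
  ext τ
  simp [Finset.sum_apply]

/-- A family of functions with pairwise distinct nebentypus characters and zero sum vanishes. -/
theorem eq_zero_of_sum_eq_zero {g : DirichletCharacter ℂ M → (ℍ → ℂ)}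
    (hg : ∀ χ, HasChar M k χ (g χ)) (h : ∑ χ, g χ = 0) : g = 0 := by
  -- slash by `γ_e`
  have h1 : ∀ e : ZMod M, ∑ χ : DirichletCharacter ℂ M, χ e • g χ = 0 := by
    intro e
    by_cases he : IsUnit e
    · have h2 := congrArg (fun G : ℍ → ℂ => G ∣[k] (diamRep he.unit)) h
      simp only [SlashAction.sum_slash, SlashAction.zero_slash] at h2
      rw [← h2]
      refine Finset.sum_congr rfl fun χ _ => ?_
      rw [hg χ _ (diamRep_mem he.unit), diamRep_lowerRight, IsUnit.unit_spec]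
    · refine Finset.sum_eq_zero fun χ _ => ?_
      rw [MulChar.map_nonunit χ he, zero_smul]
  -- Dedekind
  have hli : LinearIndependent ℂ (fun χ : DirichletCharacter ℂ M => (⇑χ : ZMod M → ℂ)) := by
    have := linearIndependent_monoidHom (ZMod M) ℂ
    refine this.comp (fun χ : DirichletCharacter ℂ M => χ.toMonoidHom) ?_
    intro χ χ' hχ
    ext a
    exact congrArg (fun φ : ZMod M →* ℂ => φ a) hχ
  funext χ τ
  have h3 : ∑ χ : DirichletCharacter ℂ M, g χ τ • (⇑χ : ZMod M → ℂ) = 0 := by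
    funext e
    have := congrFun (h1 e) τ
    simp only [Finset.sum_apply, Pi.smul_apply, smul_eq_mul, Pi.zero_apply] at this ⊢
    rw [← this]
    exact Finset.sum_congr rfl fun χ _ => mul_comm _ _
  exact Fintype.linearIndependent_iff.mp hli (fun χ => g χ τ) h3 χ

/-- **Uniqueness** of the character decomposition. -/
theorem char_decomp_unique {c c' : DirichletCharacter ℂ M → (ℍ → ℂ)}
    (hc : ∀ χ, HasChar M k χ (c χ)) (hc' : ∀ χ, HasChar M k χ (c' χ))
    (h : ∑ χ, c χ = ∑ χ, c' χ) : c = c' := by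
  have h0 := eq_zero_of_sum_eq_zero (k := k) (g := fun χ => c χ - c' χ)
    (fun χ => (hc χ).sub (hc' χ)) (by rw [Finset.sum_sub_distrib, h, sub_self])
  funext χ
  have := congrFun h0 χ
  simpa [sub_eq_zero] using this

end Fermat.Agent.S48x.GS1
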