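/-
P-S48 (GS1), sub-package (D) (helper43): division of holomorphic functions on the upper half plane.

If `u v w : ℍ → ℂ` are holomorphic, `v ≠ 0` and `u ^ n = w * v ^ n` (`n > 0`), then `u / v` extends
to a holomorphic function `F` on `ℍ` with `F * v = u` and `F ^ n = w`.
(Orders: `n ord u = ord w + n ord v ≥ n ord v` at every point.)
-/
import Mathlib

set_option autoImplicit false

noncomputable section

namespace Fermat.Agent.S48x.GS1

open UpperHalfPlane Filter Topology
open scoped Manifold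

/-! ### The statement on an open preconnected subset of `ℂ` -/

section Plane

variable {U : Set ℂ} {f g h : ℂ → ℂ}

/-- An analytic function on a preconnected open set which is not identically zero there has
isolated zeros at every point of the set. -/
theorem eventually_ne_zero_of_analyticOnNhd (hU : IsPreconnected U)
    (hg : AnalyticOnNhd ℂ g U) {z₁ : ℂ} (hz₁ : z₁ ∈ U) (hgz₁ : g z₁ ≠ 0) {x : ℂ} (hx : x ∈ U) :
    ∀ᶠ z in 𝓝[≠] x, g z ≠ 0 := by
  rcases (hg x hx).eventually_eq_zero_or_eventually_ne_zero with h0 | h0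
  · exfalso
    have := hg.eqOn_zero_of_preconnected_of_eventuallyEq_zero hU hx h0
    exact hgz₁ (this hz₁)
  · exact h0

/-- **Division on an open preconnected set.** -/
theorem exists_analyticOnNhd_quotient (hUo : IsOpen U) (hU : IsPreconnected U)
    (hf : AnalyticOnNhd ℂ f U) (hg : AnalyticOnNhd ℂ g U) (hh : AnalyticOnNhd ℂ h U)
    {z₁ : ℂ} (hz₁ : z₁ ∈ U) (hgz₁ : g z₁ ≠ 0) {n : ℕ} (hn : 0 < n)
    (hrel : ∀ z ∈ U, f z ^ n = h z * g z ^ n) :
    ∃ G : ℂ → ℂ, AnalyticOnNhd ℂ G U ∧ (∀ z ∈ U, G z * g z = f z) ∧ ∀ z ∈ U, G z ^ n = h z := by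
  have hfm : MeromorphicOn f U := hf.meromorphicOn
  have hgm : MeromorphicOn g U := hg.meromorphicOn
  set q : ℂ → ℂ := f / g with hq
  have hqm : MeromorphicOn q U := hfm.div hgm
  -- near every point of `U`, off the point: `g ≠ 0`, in `U`
  have hnear : ∀ x ∈ U, ∀ᶠ z in 𝓝[≠] x, z ∈ U ∧ g z ≠ 0 := by
    intro x hx
    have h1 : ∀ᶠ z in 𝓝[≠] x, z ∈ U := (hUo.mem_nhds hx |> mem_nhdsWithin_of_mem_nhds)
    exact h1.and (eventually_ne_zero_of_analyticOnNhd hU hg hz₁ hgz₁ hx)
  -- `q ^ n = h` near every point, off the point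
  have hqn : ∀ x ∈ U, (q ^ n) =ᶠ[𝓝[≠] x] h := by
    intro x hx
    filter_upwards [hnear x hx] with z hz
    simp only [hq, Pi.pow_apply, Pi.div_apply, div_pow]
    rw [hrel z hz.1, mul_div_assoc, div_self (pow_ne_zero n hz.2), mul_one]
  -- the order of `q` is nonnegative everywhere on `U`
  have hord : ∀ x ∈ U, 0 ≤ meromorphicOrderAt q x := by
    intro x hx
    have h1 : meromorphicOrderAt (q ^ n) x = meromorphicOrderAt h x :=
      meromorphicOrderAt_congr (hqn x hx)
    have h2 : 0 ≤ meromorphicOrderAt h x := (hh x hx).meromorphicOrderAt_nonneg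
    rw [← h1, meromorphicOrderAt_pow (hqm x hx)] at h2
    -- `0 ≤ n • ord q` with `n > 0`
    by_contra hneg
    rw [not_le] at hneg
    cases hqo : meromorphicOrderAt q x with
    | top => rw [hqo] at hneg; exact absurd hneg (by simp)
    | coe a =>
      rw [hqo] at hneg h2
      have ha : a < 0 := by exact_mod_cast hneg
      have h3 : (n : ℤ) * a < 0 := mul_neg_of_pos_of_neg (by exact_mod_cast hn) ha
      have : (0 : ℤ) ≤ n * a := by exact_mod_cast h2
      omega
  -- the normal form of `q` is analytic on `U`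
  set G : ℂ → ℂ := toMeromorphicNFOn q U with hG
  have hGnf : MeromorphicNFOn G U := meromorphicNFOn_toMeromorphicNFOn q U
  have hGan : AnalyticOnNhd ℂ G U := by
    intro x hx
    rw [← (hGnf hx).meromorphicOrderAt_nonneg_iff_analyticAt, hG,
      meromorphicOrderAt_toMeromorphicNFOn hqm hx]
    exact hord x hx
  have hGq : ∀ x ∈ U, q =ᶠ[𝓝[≠] x] G := fun x hx =>
    (hqm.toMeromorphicNFOn_eq_self_on_nhdsNE hx).symm
  refine ⟨G, hGan, fun x hx => ?_, fun x hx => ?_⟩
  · -- `G * g = f` near `x`, off `x`; both sides are continuous at `x`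
    have h1 : (fun z => G z * g z) =ᶠ[𝓝[≠] x] f := by
      filter_upwards [hGq x hx, hnear x hx] with z hz1 hz2
      rw [← hz1, hq, Pi.div_apply, div_mul_cancel₀ _ hz2.2]
    have h2 : Tendsto (fun z => G z * g z) (𝓝[≠] x) (𝓝 (G x * g x)) :=
      (((hGan x hx).continuousAt.mul (hg x hx).continuousAt).tendsto).mono_left
        nhdsWithin_le_nhds
    have h3 : Tendsto f (𝓝[≠] x) (𝓝 (f x)) :=
      ((hf x hx).continuousAt.tendsto).mono_left nhdsWithin_le_nhds
    exact tendsto_nhds_unique_of_eventuallyEq h2 h3 h1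
  · have h1 : (fun z => G z ^ n) =ᶠ[𝓝[≠] x] h := by
      filter_upwards [hGq x hx, hqn x hx] with z hz1 hz2
      rw [← hz1]
      exact hz2
    have h2 : Tendsto (fun z => G z ^ n) (𝓝[≠] x) (𝓝 (G x ^ n)) :=
      (((hGan x hx).continuousAt.pow n).tendsto).mono_left nhdsWithin_le_nhds
    have h3 : Tendsto h (𝓝[≠] x) (𝓝 (h x)) :=
      ((hh x hx).continuousAt.tendsto).mono_left nhdsWithin_le_nhds
    exact tendsto_nhds_unique_of_eventuallyEq h2 h3 h1

end Plane

/-! ### The statement on the upper half plane -/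

theorem isPreconnected_upperHalfPlaneSet : IsPreconnected {z : ℂ | 0 < z.im} :=
  (convex_halfSpace_im_gt 0).isPreconnected

/-- **(D)**: if `u ^ n = w * v ^ n` with `u v w` holomorphic on `ℍ`, `v ≠ 0`, `n > 0`, then `u / v`
extends to a holomorphic function `F` with `F * v = u` and `F ^ n = w`. -/
theorem exists_mdiff_quotient {u v w : ℍ → ℂ} (hu : MDiff u) (hv : MDiff v) (hw : MDiff w)
    (hv0 : v ≠ 0) {n : ℕ} (hn : 0 < n) (h : ∀ z, u z ^ n = w z * v z ^ n) :
    ∃ F : ℍ → ℂ, MDiff F ∧ (∀ z, F z * v z = u z) ∧ ∀ z, F z ^ n = w z := by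
  have hUo : IsOpen {z : ℂ | 0 < z.im} := isOpen_upperHalfPlaneSet
  have hua : AnalyticOnNhd ℂ (u ∘ ofComplex) {z : ℂ | 0 < z.im} :=
    (UpperHalfPlane.mdifferentiable_iff.mp hu).analyticOnNhd hUo
  have hva : AnalyticOnNhd ℂ (v ∘ ofComplex) {z : ℂ | 0 < z.im} :=
    (UpperHalfPlane.mdifferentiable_iff.mp hv).analyticOnNhd hUo
  have hwa : AnalyticOnNhd ℂ (w ∘ ofComplex) {z : ℂ | 0 < z.im} :=
    (UpperHalfPlane.mdifferentiable_iff.mp hw).analyticOnNhd hUo
  obtain ⟨z₁, hz₁⟩ : ∃ z₁ : ℍ, v z₁ ≠ 0 := by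
    by_contra hcon
    exact hv0 (funext fun z => not_not.mp fun hz => hcon ⟨z, hz⟩)
  have hz₁' : (v ∘ ofComplex) (z₁ : ℂ) ≠ 0 := by
    rw [Function.comp_apply, ofComplex_apply]
    exact hz₁
  obtain ⟨G, hGan, hGv, hGn⟩ := exists_analyticOnNhd_quotient hUo isPreconnected_upperHalfPlaneSet
    hua hva hwa (z₁ := (z₁ : ℂ)) z₁.im_pos hz₁' hn (fun z hz => by
      simp only [Function.comp_apply]
      exact h (ofComplex z))
  refine ⟨fun z => G (z : ℂ), ?_, fun z => ?_, fun z => ?_⟩
  · rw [UpperHalfPlane.mdifferentiable_iff]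
    refine hGan.differentiableOn.congr fun z hz => ?_
    simp only [Function.comp_apply, ofComplex_apply_of_im_pos hz, coe_mk]
  · have := hGv (z : ℂ) z.im_pos
    simpa only [Function.comp_apply, ofComplex_apply] using this
  · have := hGn (z : ℂ) z.im_pos
    simpa only [Function.comp_apply, ofComplex_apply] using this

end Fermat.Agent.S48x.GS1
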