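import Mathlib
import Fermat.Prelude.Thm_CongruenceSubgroup_one_mem_strictPeriods_Gamma0
import Fermat.Agent.S48x.GS1.Char
import Fermat.Agent.S48x.GS1.Divide
import Fermat.Agent.S23.Bounded

/-!
# P-S48, block GS1: conjugation of a nebentypus component  (helper39)

`conj_char` : if `g ∈ S_k(Γ₁(M))` has nebentypus `χ` and `σ ∈ Aut(ℂ)`, there is
`g' ∈ S_k(Γ₁(M))` with nebentypus `σ ∘ χ` and `q`-expansion `σ(g)`.

Proof (note `S48-IFACE-GS1`): for `χ = 1` this is the landed `S23.Bounded.galoisStable` on `Γ₀(M)`.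
For `χ ≠ 1` take the Eisenstein series `G = G_ψ`, `ψ = χ⁻¹`, of weight `w ∈ {3, 4}`, `w ≡ k mod 2`
(`EisCharStatement`), with `σ(G_ψ) = G_{σψ}`.  Then `g G ∈ S_{k+w}(Γ₀(M))` and
`g ^ n ∈ S_{nk}(Γ₀(M))` (`n = φ(M)`) have conjugates `h, h'` by the landed theorem, and
`h ^ n = h' G_{σψ} ^ n` since the `q`-expansions agree.  The division lemma gives a holomorphic
`F` with `F G_{σψ} = h` and `F ^ n = h'`; the first identity gives the nebentypus and the
`q`-expansion of `F`, the second the vanishing at all cusps.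
-/

set_option autoImplicit false
set_option linter.unusedSectionVars false

open UpperHalfPlane ModularForm CongruenceSubgroup Matrix.SpecialLinearGroup Filter
open scoped MatrixGroups ModularForm Manifold Topology

namespace Fermat.Agent.S48x.GS1

open Fermat.Agent.S20.Free Fermat.Agent.S48x.Hecke1 Fermat.Agent.S48x.Nebentypus
open ModularFormClass

/-! ### Function level calculus -/

theorem nice_one : Nice (1 : ℍ → ℂ) where
  per := fun _ => rfl
  hol := mdifferentiable_const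
  bdd := Filter.const_boundedAtFilter _ _

theorem nice_mul {F G : ℍ → ℂ} (hF : Nice F) (hG : Nice G) : Nice (F * G) where
  per := by
    intro w
    have h1 := hF.per w
    have h2 := hG.per w
    simp only [Function.comp_apply, Pi.mul_apply] at h1 h2 ⊢
    rw [h1, h2]
  hol := hF.hol.mul hG.hol
  bdd := hF.bdd.mul hG.bdd

theorem nice_pow {F : ℍ → ℂ} (hF : Nice F) (n : ℕ) : Nice (F ^ n) := by
  induction n with
  | zero => rw [pow_zero]; exact nice_one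
  | succ n ih => rw [pow_succ]; exact nice_mul ih hF

theorem qExpansion_mul_of_nice {F G : ℍ → ℂ} (hF : Nice F) (hG : Nice G) :
    qExpansion 1 (F * G) = qExpansion 1 F * qExpansion 1 G :=
  UpperHalfPlane.qExpansion_mul hF.analytic hG.analytic

theorem qExpansion_pow_of_nice {F : ℍ → ℂ} (hF : Nice F) (n : ℕ) :
    qExpansion 1 (F ^ n) = qExpansion 1 F ^ n := by
  induction n with
  | zero => rw [pow_zero, pow_zero, UpperHalfPlane.qExpansion_one]
  | succ n ih => rw [pow_succ, pow_succ, qExpansion_mul_of_nice (nice_pow hF n) hF, ih]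

theorem eq_of_qExpansion_eq {F G : ℍ → ℂ} (hF : Nice F) (hG : Nice G)
    (h : qExpansion 1 F = qExpansion 1 G) : F = G :=
  hF.ext_qCoeff hG fun n => by
    show (qExpansion 1 F).coeff n = (qExpansion 1 G).coeff n
    rw [h]

theorem ne_zero_of_qCoeff_ne_zero {F : ℍ → ℂ} {n : ℕ} (h : qCoeff F n ≠ 0) : F ≠ 0 := by
  rintro rfl
  apply h
  show (qExpansion 1 (0 : ℍ → ℂ)).coeff n = 0
  rw [UpperHalfPlane.qExpansion_zero, map_zero]

/-- Slash of a power. -/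
theorem pow_slash_SL2 (f : ℍ → ℂ) (k : ℤ) (γ : SL(2, ℤ)) (n : ℕ) :
    (f ^ n) ∣[(n : ℤ) * k] γ = (f ∣[k] γ) ^ n := by
  induction n with
  | zero =>
    rw [pow_zero, pow_zero, Nat.cast_zero, zero_mul]
    exact ModularForm.is_invariant_one γ
  | succ n ih =>
    have hw : ((n + 1 : ℕ) : ℤ) * k = (n : ℤ) * k + k := by push_cast; ring
    rw [pow_succ, pow_succ, hw, ModularForm.mul_slash_SL2, ih]

/-- Identity theorem for products on the upper half plane. -/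
theorem eq_zero_of_mul_eq_zero_mdiff {D G : ℍ → ℂ} (hD : MDiff D) (hG : MDiff G)
    (h : ∀ z, D z * G z = 0) (hG0 : G ≠ 0) : D = 0 := by
  have hU : IsOpen {z : ℂ | 0 < z.im} := UpperHalfPlane.isOpen_upperHalfPlaneSet
  have hUc : IsPreconnected {z : ℂ | 0 < z.im} := (convex_halfSpace_im_gt 0).isPreconnected
  have hD' := (UpperHalfPlane.mdifferentiable_iff.mp hD).analyticOnNhd hU
  have hG' := (UpperHalfPlane.mdifferentiable_iff.mp hG).analyticOnNhd hU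
  have hmul : ∀ z ∈ {z : ℂ | 0 < z.im},
      (D ∘ UpperHalfPlane.ofComplex) z * (G ∘ UpperHalfPlane.ofComplex) z = 0 := fun z _ => h _
  rcases AnalyticOnNhd.eq_zero_or_eq_zero_of_mul_eq_zero hD' hG' hmul hUc with h1 | h1
  · funext τ
    have := h1 (τ : ℂ) τ.im_pos
    simpa only [Function.comp_apply, UpperHalfPlane.ofComplex_apply, Pi.zero_apply] using this
  · exfalso
    apply hG0
    funext τ
    have := h1 (τ : ℂ) τ.im_pos
    simpa only [Function.comp_apply, UpperHalfPlane.ofComplex_apply, Pi.zero_apply] using this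

/-- If a power of `F` tends to `0` at `i∞`, so does `F`. -/
theorem isZeroAtImInfty_of_pow {F : ℍ → ℂ} {n : ℕ} (hn : 0 < n)
    (h : IsZeroAtImInfty (F ^ n)) : IsZeroAtImInfty F := by
  have h1 : Tendsto (fun τ => ‖F τ‖ ^ n) atImInfty (𝓝 0) := by
    have := tendsto_zero_iff_norm_tendsto_zero.mp h
    simpa only [Pi.pow_apply, norm_pow] using this
  have h2 : Tendsto (fun τ => (‖F τ‖ ^ n) ^ ((n : ℝ)⁻¹)) atImInfty (𝓝 ((0 : ℝ) ^ ((n : ℝ)⁻¹))) :=
    h1.rpow_const (Or.inr (by positivity))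
  rw [Real.zero_rpow (by positivity)] at h2
  have h3 : (fun τ => (‖F τ‖ ^ n) ^ ((n : ℝ)⁻¹)) = fun τ => ‖F τ‖ := by
    funext τ
    exact Real.pow_rpow_inv_natCast (norm_nonneg _) hn.ne'
  rw [h3] at h2
  exact tendsto_zero_iff_norm_tendsto_zero.mpr h2

/-! ### Modular forms with nebentypus -/

variable {M : ℕ} [NeZero M]

theorem nice_of_isMF_Gamma1 {k : ℤ} {f : ℍ → ℂ} (hf : IsMF (Gamma1 M) k f) : Nice f := by
  obtain ⟨F, rfl⟩ := hf
  exact
    { per := by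
        have := SlashInvariantFormClass.periodic_comp_ofComplex F
          (one_mem_strictPeriods_Gamma1 (N := M))
        simpa using this
      hol := ModularFormClass.holo F
      bdd := ModularFormClass.bdd_at_infty F }

theorem nice_of_isCF_Gamma1 {k : ℤ} {f : ℍ → ℂ} (hf : IsCF (Gamma1 M) k f) : Nice f :=
  nice_of_isMF_Gamma1 hf.isMF

theorem nice_cuspForm_Gamma0 {k : ℤ} (F : CuspForm (Gamma0 M) k) : Nice ⇑F where
  per := by
    have := SlashInvariantFormClass.periodic_comp_ofComplex F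
      (CongruenceSubgroup.one_mem_strictPeriods_Gamma0 M)
    simpa using this
  hol := ModularFormClass.holo F
  bdd := ModularFormClass.bdd_at_infty F

theorem HasChar.zero (k : ℤ) (χ : DirichletCharacter ℂ M) : HasChar M k χ 0 := by
  intro γ _
  rw [SlashAction.zero_slash, smul_zero]

/-- The product of a cusp form with nebentypus `χ` and a modular form with nebentypus `ψ`,
`χ ψ = 1`, is a cusp form on `Γ₀(M)`. -/
theorem isCF_Gamma0_mul {k w : ℤ} {χ ψ : DirichletCharacter ℂ M} {g G : ℍ → ℂ}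
    (hg : IsCF (Gamma1 M) k g) (hgχ : HasChar M k χ g) (hG : IsMF (Gamma1 M) w G)
    (hGψ : HasChar M w ψ G)
    (hχψ : ∀ γ ∈ Gamma0 M, χ (((γ 1 1 : ℤ)) : ZMod M) * ψ (((γ 1 1 : ℤ)) : ZMod M) = 1) :
    IsCF (Gamma0 M) (k + w) (g * G) := by
  obtain ⟨g1, -, g3⟩ := isCF_iff.mp hg
  obtain ⟨G1, -, G3⟩ := isMF_iff.mp hG
  refine isCF_iff.mpr ⟨g1.mul G1, fun γ hγ => ?_, fun γ => ?_⟩
  · rw [ModularForm.mul_slash_SL2, hgχ γ hγ, hGψ γ hγ, smul_mul_smul_comm, hχψ γ hγ, one_smul]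
  · rw [ModularForm.mul_slash_SL2]
    exact (g3 γ).mul_boundedAtFilter (G3 γ)

/-- A power of a cusp form with nebentypus `χ`, `χ ^ n = 1`, is a cusp form on `Γ₀(M)`. -/
theorem isCF_Gamma0_pow {k : ℤ} {χ : DirichletCharacter ℂ M} {g : ℍ → ℂ}
    (hg : IsCF (Gamma1 M) k g) (hgχ : HasChar M k χ g) {n : ℕ} (hn : 0 < n)
    (hχn : ∀ γ ∈ Gamma0 M, χ (((γ 1 1 : ℤ)) : ZMod M) ^ n = 1) :
    IsCF (Gamma0 M) ((n : ℤ) * k) (g ^ n) := by
  obtain ⟨g1, -, g3⟩ := isCF_iff.mp hg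
  refine isCF_iff.mpr ⟨?_, fun γ hγ => ?_, fun γ => ?_⟩
  · exact (nice_pow (nice_of_isCF_Gamma1 hg) n).hol
  · rw [pow_slash_SL2, hgχ γ hγ, smul_pow, hχn γ hγ, one_smul]
  · rw [pow_slash_SL2]
    have h0 : Tendsto (fun τ => (g ∣[k] γ) τ ^ n) atImInfty (𝓝 (0 ^ n)) := (g3 γ).pow n
    rw [zero_pow hn.ne'] at h0
    exact h0

/-! ### The conjugation theorem -/

theorem conj_char_aux (hE : EisCharStatement) {k : ℤ} {χ : DirichletCharacter ℂ M} (hχ : χ ≠ 1)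
    {g : ℍ → ℂ} (hg : IsCF (Gamma1 M) k g) (hgχ : HasChar M k χ g) (hg0 : g ≠ 0)
    (σ : ℂ ≃+* ℂ) :
    ∃ g' : ℍ → ℂ, IsCF (Gamma1 M) k g' ∧ HasChar M k (χ.ringHomComp (σ : ℂ →+* ℂ)) g' ∧
      ∀ n, qCoeff g' n = σ (qCoeff g n) := by
  classical
  have hpar : χ (-1) = (-1) ^ k := HasChar.eval_neg_one hg0 hgχ
  obtain ⟨w, hw3, hwpar⟩ : ∃ w : ℕ, 3 ≤ w ∧ ((-1 : ℂ) ^ w = (-1) ^ k) := by
    rcases Int.even_or_odd k with hk | hk
    · exact ⟨4, by norm_num, by rw [hk.neg_one_zpow]; norm_num⟩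
    · exact ⟨3, by norm_num, by rw [hk.neg_one_zpow]; norm_num⟩
  have hsq : ((-1 : ℂ) ^ k) * ((-1 : ℂ) ^ k) = 1 := by
    rw [← mul_zpow]
    norm_num
  -- the characters
  set ψ : DirichletCharacter ℂ M := χ⁻¹ with hψ
  set χ' : DirichletCharacter ℂ M := χ.ringHomComp (σ : ℂ →+* ℂ) with hχ'
  set ψ' : DirichletCharacter ℂ M := ψ.ringHomComp (σ : ℂ →+* ℂ) with hψ'
  have hψ1 : ψ ≠ 1 := inv_ne_one.mpr hχ
  have hψpar : ψ (-1) = (-1) ^ w := by
    rw [hψ, MulChar.inv_apply_eq_inv', hpar, hwpar]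
    exact inv_eq_of_mul_eq_one_left hsq
  have hψ'1 : ψ' ≠ 1 := by
    intro h
    apply hψ1
    ext a
    have h1 := congrArg (fun φ : DirichletCharacter ℂ M => φ a) h
    simp only [hψ', MulChar.ringHomComp_apply, MulChar.one_apply_coe] at h1
    rw [MulChar.one_apply_coe]
    apply σ.injective
    rw [map_one]
    exact h1
  have hψ'par : ψ' (-1) = (-1) ^ w := by
    rw [hψ', MulChar.ringHomComp_apply, hψpar]
    simp
  obtain ⟨G, hGmf, hGψ, hGq⟩ := hE M ψ hψ1 w hw3 hψpar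
  obtain ⟨G', hG'mf, hG'ψ, hG'q⟩ := hE M ψ' hψ'1 w hw3 hψ'par
  -- character arithmetic on `Γ₀(M)`
  have hχψ : ∀ γ ∈ Gamma0 M, χ (((γ 1 1 : ℤ)) : ZMod M) * ψ (((γ 1 1 : ℤ)) : ZMod M) = 1 := by
    intro γ hγ
    rw [hψ, MulChar.inv_apply_eq_inv']
    exact mul_inv_cancel₀ ((isUnit_lowerRight hγ).map χ).ne_zero
  have hχ'ψ' : ∀ γ ∈ Gamma0 M,
      χ' (((γ 1 1 : ℤ)) : ZMod M) * ψ' (((γ 1 1 : ℤ)) : ZMod M) = 1 := by
    intro γ hγ
    rw [hχ', hψ', MulChar.ringHomComp_apply, MulChar.ringHomComp_apply, ← map_mul, hχψ γ hγ,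
      map_one]
  set n : ℕ := M.totient with hn'
  have hn : 0 < n := Nat.totient_pos.mpr (NeZero.pos M)
  have hχn : ∀ γ ∈ Gamma0 M, χ (((γ 1 1 : ℤ)) : ZMod M) ^ n = 1 := by
    intro γ hγ
    rw [← coe_lowerRightUnit hγ, ← map_pow, ← Units.val_pow_eq_pow_val, ZMod.pow_totient,
      Units.val_one, map_one]
  -- niceness
  have hgN := nice_of_isCF_Gamma1 hg
  have hGN := nice_of_isMF_Gamma1 hGmf
  have hG'N := nice_of_isMF_Gamma1 hG'mf
  -- the two auxiliary forms on `Γ₀(M)` and their conjugates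
  obtain ⟨U, hU⟩ := isCF_Gamma0_mul hg hgχ hGmf hGψ hχψ
  obtain ⟨V, hV⟩ := isCF_Gamma0_pow hg hgχ hn hχn
  obtain ⟨h, hh⟩ := Fermat.Agent.S23.Bounded.galoisStable M (k + w) σ U
  obtain ⟨h', hh'⟩ := Fermat.Agent.S23.Bounded.galoisStable M ((n : ℤ) * k) σ V
  have hhN := nice_cuspForm_Gamma0 h
  have hh'N := nice_cuspForm_Gamma0 h'
  have qh : qExpansion 1 ⇑h =
      PowerSeries.map (σ : ℂ →+* ℂ) (qExpansion 1 g * qExpansion 1 G) := by
    rw [← qExpansion_mul_of_nice hgN hGN, ← hU]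
    ext m
    rw [PowerSeries.coeff_map]
    exact hh m
  have qh' : qExpansion 1 ⇑h' = PowerSeries.map (σ : ℂ →+* ℂ) (qExpansion 1 g ^ n) := by
    rw [← qExpansion_pow_of_nice hgN, ← hV]
    ext m
    rw [PowerSeries.coeff_map]
    exact hh' m
  have qG' : qExpansion 1 G' = PowerSeries.map (σ : ℂ →+* ℂ) (qExpansion 1 G) := by
    ext m
    rw [PowerSeries.coeff_map]
    show qCoeff G' m = σ (qCoeff G m)
    rw [hG'q, hGq, map_sum]
    refine Finset.sum_congr rfl fun c _ => ?_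
    rw [map_mul, map_pow, map_natCast σ, hψ', MulChar.ringHomComp_apply]
    rfl
  -- the key identity
  have hid : (⇑h : ℍ → ℂ) ^ n = ⇑h' * G' ^ n := by
    apply eq_of_qExpansion_eq (nice_pow hhN n) (nice_mul hh'N (nice_pow hG'N n))
    rw [qExpansion_pow_of_nice hhN, qExpansion_mul_of_nice hh'N (nice_pow hG'N n),
      qExpansion_pow_of_nice hG'N, qh, qh', qG']
    simp only [map_mul, map_pow, mul_pow]
  have hG'1 : qCoeff G' 1 = 1 := by
    rw [hG'q]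
    simp
  have hG'0 : G' ≠ 0 := ne_zero_of_qCoeff_ne_zero (n := 1) (by rw [hG'1]; exact one_ne_zero)
  -- division
  obtain ⟨F, hFhol, hFG, hFn⟩ := exists_mdiff_quotient hhN.hol hG'N.hol hh'N.hol hG'0 hn
    (fun z => by
      have := congrFun hid z
      simpa only [Pi.pow_apply, Pi.mul_apply] using this)
  have hFG' : F * G' = ⇑h := funext hFG
  have hFn' : F ^ n = ⇑h' := funext hFn
  -- nebentypus of `F`
  have hhinv : ∀ γ ∈ Gamma0 M, (⇑h : ℍ → ℂ) ∣[k + w] γ = ⇑h :=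
    (isCF_iff.mp (⟨h, rfl⟩ : IsCF (Gamma0 M) (k + w) ⇑h)).2.1
  have hFχ : HasChar M k χ' F := by
    intro γ hγ
    have hsl : MDiff (F ∣[k] γ) := by
      rw [ModularForm.SL_slash]
      exact hFhol.slash k _
    have h1 : (F ∣[k] γ) * (ψ' (((γ 1 1 : ℤ)) : ZMod M) • G') = F * G' := by
      rw [← hG'ψ γ hγ, ← ModularForm.mul_slash_SL2, hFG', hhinv γ hγ]
    have h2 : ψ' (((γ 1 1 : ℤ)) : ZMod M) • (F ∣[k] γ) - F = 0 := by
      apply eq_zero_of_mul_eq_zero_mdiff (G := G') ((hsl.const_smul _).sub hFhol) hG'N.hol _ hG'0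
      intro z
      have := congrFun h1 z
      simp only [Pi.mul_apply, Pi.smul_apply, smul_eq_mul, Pi.sub_apply] at this ⊢
      linear_combination this
    have h3 : ψ' (((γ 1 1 : ℤ)) : ZMod M) • (F ∣[k] γ) = F := sub_eq_zero.mp h2
    calc F ∣[k] γ = (χ' (((γ 1 1 : ℤ)) : ZMod M) * ψ' (((γ 1 1 : ℤ)) : ZMod M)) • (F ∣[k] γ) := by
          rw [hχ'ψ' γ hγ, one_smul]
      _ = χ' (((γ 1 1 : ℤ)) : ZMod M) • F := by rw [mul_smul, h3]
  -- `F` is a cusp form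
  have hh'z : ∀ γ : SL(2, ℤ), IsZeroAtImInfty ((⇑h' : ℍ → ℂ) ∣[(n : ℤ) * k] γ) :=
    (isCF_iff.mp (⟨h', rfl⟩ : IsCF (Gamma0 M) ((n : ℤ) * k) ⇑h')).2.2
  have hFcf : IsCF (Gamma1 M) k F := by
    refine isCF_iff.mpr ⟨hFhol, fun γ hγ => ?_, fun γ => ?_⟩
    · rw [hFχ γ (Gamma1_in_Gamma0 M hγ), ((Gamma1_mem M γ).mp hγ).2.1, map_one, one_smul]
    · apply isZeroAtImInfty_of_pow hn
      rw [← pow_slash_SL2, hFn']
      exact hh'z γ
  -- the `q`-expansion of `F`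
  have hFN := nice_of_isCF_Gamma1 hFcf
  have qG'0 : qExpansion 1 G' ≠ 0 := by
    intro h0
    have h1 : qCoeff G' 1 = 0 := by
      show (qExpansion 1 G').coeff 1 = 0
      rw [h0, map_zero]
    rw [hG'1] at h1
    exact one_ne_zero h1
  have qF : qExpansion 1 F = PowerSeries.map (σ : ℂ →+* ℂ) (qExpansion 1 g) := by
    apply mul_right_cancel₀ qG'0
    rw [← qExpansion_mul_of_nice hFN hG'N, hFG', qh, qG', map_mul]
  refine ⟨F, hFcf, hFχ, fun m => ?_⟩
  show (qExpansion 1 F).coeff m = σ ((qExpansion 1 g).coeff m)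
  rw [qF, PowerSeries.coeff_map]
  rfl

/-- **Conjugation of a nebentypus component.** -/
theorem conj_char (hE : EisCharStatement) {k : ℤ} (χ : DirichletCharacter ℂ M)
    {g : ℍ → ℂ} (hg : IsCF (Gamma1 M) k g) (hgχ : HasChar M k χ g) (σ : ℂ ≃+* ℂ) :
    ∃ g' : ℍ → ℂ, IsCF (Gamma1 M) k g' ∧ HasChar M k (χ.ringHomComp (σ : ℂ →+* ℂ)) g' ∧
      ∀ n, qCoeff g' n = σ (qCoeff g n) := by
  by_cases hg0 : g = 0
  · subst hg0
    refine ⟨0, hg, HasChar.zero k _, fun n => ?_⟩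
    have h0 : qCoeff (0 : ℍ → ℂ) n = 0 := by
      show (qExpansion 1 (0 : ℍ → ℂ)).coeff n = 0
      rw [UpperHalfPlane.qExpansion_zero, map_zero]
    rw [h0, map_zero]
  by_cases hχ : χ = 1
  · subst hχ
    obtain ⟨V, hV⟩ := HasChar.isCF_Gamma0 hg hgχ
    obtain ⟨h, hh⟩ := Fermat.Agent.S23.Bounded.galoisStable M k σ V
    obtain ⟨h1, h2, h3⟩ := isCF_iff.mp (⟨h, rfl⟩ : IsCF (Gamma0 M) k ⇑h)
    refine ⟨⇑h, ?_, ?_, fun n => ?_⟩
    · exact isCF_iff.mpr ⟨h1, fun γ hγ => h2 γ (Gamma1_in_Gamma0 M hγ), h3⟩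
    · intro γ hγ
      rw [h2 γ hγ, MulChar.ringHomComp_apply, MulChar.one_apply (isUnit_lowerRight hγ), map_one,
        one_smul]
    · rw [hh n, hV]
  · exact conj_char_aux hE hχ hg hgχ hg0 σ

end Fermat.Agent.S48x.GS1
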