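import Mathlib
import Fermat.Agent.S48x.GS1.Conj

/-!
# P-S48, block GS1: Galois stability and finite dimensionality of `S_k(Γ₁(M))`  (helper39)

* `qExpL M k`, `qMap1 M k` : the `q`-expansion as a linear map (to power series / sequences), both
  injective;
* `galoisStable1 hE M k : GaloisStable1 M k`  (all weights `k : ℤ`);
* `charSubmodule M k χ` : the `χ`-eigenspace of the diamond operators, `iSup_charSubmodule`;
* `exists_eis` : the Eisenstein series `G_{χ⁻¹}` of the right parity, with its basic properties;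
* `finiteDimensional_cuspForm1 hE M k : FiniteDimensional ℂ (CuspForm (Gamma1 M) k)`.

Everything depends on the hypothesis `hE : EisCharStatement` (package `EisChar.lean`).
-/

set_option autoImplicit false
set_option linter.unusedSectionVars false

open UpperHalfPlane ModularForm CongruenceSubgroup Matrix.SpecialLinearGroup Filter
open scoped MatrixGroups ModularForm Manifold Topology

namespace Fermat.Agent.S48x.GS1

open Fermat.Agent.S20.Free Fermat.Agent.S48x.Hecke1 Fermat.Agent.S48x.Nebentypus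
open ModularFormClass

variable {M : ℕ} [NeZero M] {k : ℤ}

theorem nice_coe (F : CuspForm (Gamma1 M) k) : Nice ⇑F := nice_of_isCF_Gamma1 ⟨F, rfl⟩

theorem coe_smul_cuspForm1 (c : ℂ) (F : CuspForm (Gamma1 M) k) : ⇑(c • F) = c • ⇑F := by
  ext z
  simp

/-- The `q`-expansion at `∞`, as a linear map to power series. -/
noncomputable def qExpL (M : ℕ) [NeZero M] (k : ℤ) :
    CuspForm (Gamma1 M) k →ₗ[ℂ] PowerSeries ℂ where
  toFun F := qExpansion 1 ⇑F
  map_add' F G := by
    rw [FunLike.coe_add]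
    exact UpperHalfPlane.qExpansion_add (nice_coe F).analytic (nice_coe G).analytic
  map_smul' c F := by
    rw [RingHom.id_apply, coe_smul_cuspForm1]
    exact UpperHalfPlane.qExpansion_smul (nice_coe F).analytic c

@[simp] theorem qExpL_apply (F : CuspForm (Gamma1 M) k) : qExpL M k F = qExpansion 1 ⇑F := rfl

theorem qExpL_injective : Function.Injective (qExpL M k) := fun F G h =>
  DFunLike.coe_injective (eq_of_qExpansion_eq (nice_coe F) (nice_coe G) h)

/-- The `q`-expansion map, as a linear map to sequences. -/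
noncomputable def qMap1 (M : ℕ) [NeZero M] (k : ℤ) : CuspForm (Gamma1 M) k →ₗ[ℂ] (ℕ → ℂ) :=
  LinearMap.pi fun n => (PowerSeries.coeff n) ∘ₗ qExpL M k

theorem qMap1_apply (F : CuspForm (Gamma1 M) k) (n : ℕ) : qMap1 M k F n = qCoeff ⇑F n := rfl

theorem qMap1_injective : Function.Injective (qMap1 M k) := by
  intro F G h
  apply qExpL_injective
  ext n
  exact congrFun h n

theorem qCoeff_sum1 {ι : Type*} (s : Finset ι) (F : ι → CuspForm (Gamma1 M) k) (n : ℕ) :
    qCoeff ⇑(∑ i ∈ s, F i) n = ∑ i ∈ s, qCoeff ⇑(F i) n := by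
  have := congrFun (map_sum (qMap1 M k) F s) n
  simpa only [qMap1_apply, Finset.sum_apply] using this

/-- **Galois stability** of `S_k(Γ₁(M))`. -/
theorem galoisStable1 (hE : EisCharStatement) (M : ℕ) [NeZero M] (k : ℤ) : GaloisStable1 M k := by
  intro σ F
  classical
  have hc1 : ∀ χ : DirichletCharacter ℂ M, IsCF (Gamma1 M) k ⇑(charComponent χ F) :=
    fun χ => ⟨_, rfl⟩
  choose g' hg'1 _ hg'3 using fun χ : DirichletCharacter ℂ M =>
    conj_char hE χ (hc1 χ) (hasChar_charComponent χ F) σ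
  choose F' hF' using hg'1
  refine ⟨∑ χ, F' χ, fun n => ?_⟩
  have h2 : qCoeff ⇑F n = ∑ χ, qCoeff ⇑(charComponent χ F) n := by
    conv_lhs => rw [← sum_charComponent F]
    exact qCoeff_sum1 _ _ n
  rw [qCoeff_sum1, h2, map_sum]
  refine Finset.sum_congr rfl fun χ _ => ?_
  rw [hF' χ, hg'3 χ n]

/-! ### The eigenspaces of the diamond operators -/

/-- The subspace of forms with nebentypus `χ`. -/
def charSubmodule (M : ℕ) [NeZero M] (k : ℤ) (χ : DirichletCharacter ℂ M) :
    Submodule ℂ (CuspForm (Gamma1 M) k) where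
  carrier := {F | HasChar M k χ ⇑F}
  add_mem' := fun {F G} hF hG => by
    rw [Set.mem_ofPred_eq, FunLike.coe_add]
    exact HasChar.add hF hG
  zero_mem' := by
    rw [Set.mem_ofPred_eq, FunLike.coe_zero]
    exact HasChar.zero k χ
  smul_mem' := fun c F hF => by
    rw [Set.mem_ofPred_eq, coe_smul_cuspForm1]
    exact HasChar.smul hF c

theorem mem_charSubmodule {χ : DirichletCharacter ℂ M} {F : CuspForm (Gamma1 M) k} :
    F ∈ charSubmodule M k χ ↔ HasChar M k χ ⇑F := Iff.rfl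

theorem iSup_charSubmodule : ⨆ χ, charSubmodule M k χ = ⊤ := by
  rw [eq_top_iff]
  intro F _
  rw [← sum_charComponent F]
  exact Submodule.sum_mem _ fun χ _ =>
    Submodule.mem_iSup_of_mem χ (hasChar_charComponent χ F)

/-! ### The Eisenstein series -/

/-- The values of a Dirichlet character are algebraic integers. -/
theorem isIntegral_dirichlet (χ : DirichletCharacter ℂ M) (a : ZMod M) : IsIntegral ℤ (χ a) := by
  by_cases ha : IsUnit a
  · obtain ⟨u, rfl⟩ := ha
    have h1 : χ (u : ZMod M) ^ M.totient = 1 := by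
      rw [← map_pow, ← Units.val_pow_eq_pow_val, ZMod.pow_totient, Units.val_one, map_one]
    refine IsIntegral.of_pow (Nat.totient_pos.mpr (NeZero.pos M)) ?_
    rw [h1]
    exact isIntegral_one
  · rw [MulChar.map_nonunit χ ha]
    exact isIntegral_zero

/-- The Eisenstein series `G_{χ⁻¹}` of weight `w ∈ {3, 4}`, for a nontrivial `χ` of the parity
of `k`. -/
theorem exists_eis (hE : EisCharStatement) {χ : DirichletCharacter ℂ M} (hχ : χ ≠ 1)
    (hpar : χ (-1) = (-1) ^ k) :
    ∃ (w : ℕ) (G : ℍ → ℂ), IsMF (Gamma1 M) w G ∧ HasChar M w χ⁻¹ G ∧ qCoeff G 0 = 0 ∧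
      qCoeff G 1 = 1 ∧ (∀ n, IsIntegral ℤ (qCoeff G n)) ∧
      ∀ γ ∈ Gamma0 M, χ (((γ 1 1 : ℤ)) : ZMod M) * χ⁻¹ (((γ 1 1 : ℤ)) : ZMod M) = 1 := by
  obtain ⟨w, hw3, hwpar⟩ : ∃ w : ℕ, 3 ≤ w ∧ ((-1 : ℂ) ^ w = (-1) ^ k) := by
    rcases Int.even_or_odd k with hk | hk
    · exact ⟨4, by norm_num, by rw [hk.neg_one_zpow]; norm_num⟩
    · exact ⟨3, by norm_num, by rw [hk.neg_one_zpow]; norm_num⟩
  have hsq : ((-1 : ℂ) ^ k) * ((-1 : ℂ) ^ k) = 1 := by
    rw [← mul_zpow]
    norm_num
  have hψpar : χ⁻¹ (-1) = (-1) ^ w := by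
    rw [MulChar.inv_apply_eq_inv', hpar, hwpar]
    exact inv_eq_of_mul_eq_one_left hsq
  obtain ⟨G, hGmf, hGψ, hGq⟩ := hE M χ⁻¹ (inv_ne_one.mpr hχ) w hw3 hψpar
  refine ⟨w, G, hGmf, hGψ, ?_, ?_, fun n => ?_, fun γ hγ => ?_⟩
  · rw [hGq]
    simp
  · rw [hGq]
    simp
  · rw [hGq]
    refine IsIntegral.sum _ fun c _ => ?_
    have hnat : IsIntegral ℤ (((n / c : ℕ)) : ℂ) := by
      have := isIntegral_algebraMap (R := ℤ) (A := ℂ) (x := ((n / c : ℕ) : ℤ))
      rwa [algebraMap_int_eq, eq_intCast, Int.cast_natCast] at this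
    exact (isIntegral_dirichlet _ _).mul (hnat.pow _)
  · rw [MulChar.inv_apply_eq_inv']
    exact mul_inv_cancel₀ ((isUnit_lowerRight hγ).map χ).ne_zero

/-! ### Finite dimensionality -/

/-- `F ↦` the first `B + 1` coefficients of `qExpansion F * p`. -/
noncomputable def truncMul (M : ℕ) [NeZero M] (k : ℤ) (p : PowerSeries ℂ) (B : ℕ) :
    CuspForm (Gamma1 M) k →ₗ[ℂ] (Fin (B + 1) → ℂ) :=
  LinearMap.pi fun i => (PowerSeries.coeff (i : ℕ)) ∘ₗ (LinearMap.mulRight ℂ p) ∘ₗ qExpL M k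

theorem truncMul_apply (p : PowerSeries ℂ) (B : ℕ) (F : CuspForm (Gamma1 M) k) (i : Fin (B + 1)) :
    truncMul M k p B F i = PowerSeries.coeff (i : ℕ) (qExpansion 1 ⇑F * p) := rfl

theorem finiteDimensional_charSubmodule_one :
    FiniteDimensional ℂ (charSubmodule M k (1 : DirichletCharacter ℂ M)) := by
  set B : ℕ := (k * (Gamma0 M).index).toNat / 12 with hB
  set T := (truncMul M k 1 B).domRestrict (charSubmodule M k 1) with hT
  refine FiniteDimensional.of_injective T ?_
  refine (injective_iff_map_eq_zero _).mpr fun F hF => ?_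
  obtain ⟨V, hV⟩ := HasChar.isCF_Gamma0 (⟨F.1, rfl⟩ : IsCF (Gamma1 M) k ⇑F.1) F.2
  have hV0 : V = 0 := by
    apply Fermat.Agent.S23.eq_zero_of_qCoeff_trunc M k V
    intro n hn
    have := congrFun hF ⟨n, Nat.lt_succ_of_le hn⟩
    rw [hT, LinearMap.domRestrict_apply, truncMul_apply, mul_one] at this
    rw [hV]
    exact this
  apply Subtype.ext
  apply DFunLike.coe_injective
  rw [← hV, hV0]
  rfl

theorem finiteDimensional_charSubmodule (hE : EisCharStatement) (χ : DirichletCharacter ℂ M) :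
    FiniteDimensional ℂ (charSubmodule M k χ) := by
  by_cases hχ : χ = 1
  · subst hχ
    exact finiteDimensional_charSubmodule_one
  by_cases hbot : charSubmodule M k χ = ⊥
  · rw [hbot]
    infer_instance
  obtain ⟨F₀, hF₀, hF₀0⟩ := (Submodule.ne_bot_iff _).mp hbot
  have hF₀0' : (⇑F₀ : ℍ → ℂ) ≠ 0 := fun h => hF₀0 (DFunLike.coe_injective (by rw [h]; rfl))
  have hpar : χ (-1) = (-1) ^ k := HasChar.eval_neg_one hF₀0' hF₀
  obtain ⟨w, G, hGmf, hGψ, -, hG1, -, hχψ⟩ := exists_eis hE hχ hpar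
  have hG0 : G ≠ 0 := ne_zero_of_qCoeff_ne_zero (n := 1) (by rw [hG1]; exact one_ne_zero)
  have hGN := nice_of_isMF_Gamma1 hGmf
  set B : ℕ := ((k + w) * (Gamma0 M).index).toNat / 12 with hB
  set T := (truncMul M k (qExpansion 1 G) B).domRestrict (charSubmodule M k χ) with hT
  refine FiniteDimensional.of_injective T ?_
  refine (injective_iff_map_eq_zero _).mpr fun F hF => ?_
  obtain ⟨U, hU⟩ := isCF_Gamma0_mul (⟨F.1, rfl⟩ : IsCF (Gamma1 M) k ⇑F.1) F.2 hGmf hGψ hχψ
  have hU0 : U = 0 := by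
    apply Fermat.Agent.S23.eq_zero_of_qCoeff_trunc M (k + w) U
    intro n hn
    have := congrFun hF ⟨n, Nat.lt_succ_of_le hn⟩
    rw [hT, LinearMap.domRestrict_apply, truncMul_apply,
      ← qExpansion_mul_of_nice (nice_coe F.1) hGN] at this
    rw [hU]
    exact this
  have hmul : ∀ z, (⇑F.1 : ℍ → ℂ) z * G z = 0 := by
    intro z
    have := congrFun hU z
    rw [hU0] at this
    exact this.symm
  have hF0 : (⇑F.1 : ℍ → ℂ) = 0 :=
    eq_zero_of_mul_eq_zero_mdiff (nice_coe F.1).hol hGN.hol hmul hG0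
  apply Subtype.ext
  apply DFunLike.coe_injective
  rw [hF0]
  rfl

/-- **Finite dimensionality** of `S_k(Γ₁(M))`. -/
theorem finiteDimensional_cuspForm1 (hE : EisCharStatement) (M : ℕ) [NeZero M] (k : ℤ) :
    FiniteDimensional ℂ (CuspForm (Gamma1 M) k) := by
  have : ∀ χ : DirichletCharacter ℂ M, FiniteDimensional ℂ (charSubmodule M k χ) :=
    fun χ => finiteDimensional_charSubmodule hE χ
  have h1 : FiniteDimensional ℂ (⨆ χ, charSubmodule M k χ : Submodule ℂ (CuspForm (Gamma1 M) k)) :=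
    inferInstance
  rw [iSup_charSubmodule] at h1
  exact LinearEquiv.finiteDimensional (Submodule.topEquiv : _ ≃ₗ[ℂ] CuspForm (Gamma1 M) k)

end Fermat.Agent.S48x.GS1
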