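import Mathlib
import Fermat.Agent.S48x.GS1.Stable
import Fermat.Agent.S48x.GS1.AutComplex

/-!
# P-S48, block GS1: bounded denominators and the integral structure of `S_k(Γ₁(M))`  (helper39)

* `hasAlgIntMultiple_of_mem_span` : a power series with algebraic coefficients in the complex span
  of integer power series has a nonzero integer multiple with algebraic integer coefficients
  (the retraction trick of `S23/BoundedAlg`);
* `qCoeff_charComponent_conj` : for `F` with `σ`-fixed `q`-expansion, `σ(F_χ) = F_{σχ}`;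
* `boundedDenominators1`, `hasIntegralStructure1 : HasIntegralStructure1 M k`;
* `hasAlgIntMultiple1` : a form with algebraic `q`-expansion has a nonzero integer multiple with
  algebraic integer `q`-expansion.
-/

set_option autoImplicit false
set_option linter.unusedSectionVars false

open UpperHalfPlane ModularForm CongruenceSubgroup Matrix.SpecialLinearGroup Filter
open scoped MatrixGroups ModularForm Manifold Topology

namespace Fermat.Agent.S48x.GS1

open Fermat.Agent.S20.Free Fermat.Agent.S48x.Hecke1 Fermat.Agent.S48x.Nebentypus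
open ModularFormClass
open Fermat.Agent.S23 (IsIntPS IsRatPS IsAlgIntPS)
open Fermat.Agent.S23.IntSeries (coeffSubring mem_coeffSubring intSubring mem_intSubring
  algIntSubring mem_algIntSubring ratSubring mem_ratSubring smul_mem_coeffSubring
  mem_coeffSubring_of_X_mul mem_coeffSubring_of_mul_mem mem_coeffSubring_int_of_algInt_of_rat
  natCast_mem_intSubring intSubring_le_algIntSubring intSubring_le_ratSubring coeffSubring_mono)
open Fermat.Agent.S23.Bounded (HasAlgIntMultiple hasAlgIntMultiple_zero hasAlgIntMultiple_add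
  hasAlgIntMultiple_smul_of_isAlgebraic exists_retraction isIntPS_iff isAlgIntPS_iff isRatPS_iff)

/-! ### Power series -/

/-- The set of power series with integer coefficients. -/
def intPSSet : Set (PowerSeries ℂ) := {e | IsIntPS e}

/-- A power series with algebraic coefficients in the complex span of integer power series has a
nonzero integer multiple with algebraic integer coefficients. -/
theorem hasAlgIntMultiple_of_mem_span {x : PowerSeries ℂ}
    (hx : x ∈ Submodule.span ℂ intPSSet)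
    (hxalg : ∀ n, IsAlgebraic ℚ (PowerSeries.coeff n x)) : HasAlgIntMultiple x := by
  obtain ⟨π, hπ1, hπ2⟩ := exists_retraction
  let P : PowerSeries ℂ → PowerSeries ℂ := fun y => PowerSeries.mk fun n => π (PowerSeries.coeff n y)
  have hP_add : ∀ x y, P (x + y) = P x + P y := by
    intro x y
    ext n
    simp [P]
  have hkey : ∀ x ∈ Submodule.span ℂ intPSSet, ∀ c : ℂ, HasAlgIntMultiple (P (c • x)) := by
    intro x hx
    refine Submodule.span_induction
      (p := fun x _ => ∀ c : ℂ, HasAlgIntMultiple (P (c • x))) ?_ ?_ ?_ ?_ hx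
    · intro e he c
      have heI : e ∈ coeffSubring intSubring := isIntPS_iff.1 he
      have : P (c • e) = π c • e := by
        ext n
        obtain ⟨m, hm⟩ := mem_intSubring.1 (heI n)
        simp only [P, PowerSeries.coeff_mk, PowerSeries.coeff_smul, smul_eq_mul]
        rw [← hm]
        have h1 : c * (m : ℂ) = m • c := by simp [mul_comm]
        rw [h1, map_zsmul]
        simp [mul_comm]
      rw [this]
      exact hasAlgIntMultiple_smul_of_isAlgebraic (hπ2 c) heI
    · intro c
      have : P (c • 0) = 0 := by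
        ext n
        simp [P]
      rw [this]
      exact hasAlgIntMultiple_zero
    · intro x y _ _ hx hy c
      rw [smul_add, hP_add]
      exact hasAlgIntMultiple_add (hx c) (hy c)
    · intro a x _ hx c
      rw [smul_smul]
      exact hx (c * a)
  have hfix : P ((1 : ℂ) • x) = x := by
    ext n
    simp only [P, PowerSeries.coeff_mk, one_smul]
    exact hπ1 _ (hxalg n)
  have := hkey x hx 1
  rwa [hfix] at this

theorem hasAlgIntMultiple_sum {ι : Type*} (s : Finset ι) (x : ι → PowerSeries ℂ)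
    (h : ∀ i ∈ s, HasAlgIntMultiple (x i)) : HasAlgIntMultiple (∑ i ∈ s, x i) := by
  classical
  induction s using Finset.induction_on with
  | empty => rw [Finset.sum_empty]; exact hasAlgIntMultiple_zero
  | insert a s ha ih =>
    rw [Finset.sum_insert ha]
    exact hasAlgIntMultiple_add (h a (Finset.mem_insert_self a s))
      (ih fun i hi => h i (Finset.mem_insert_of_mem hi))

theorem isIntPS_zero : IsIntPS 0 := fun n => ⟨0, by simp⟩

theorem isIntPS_add {x y : PowerSeries ℂ} (hx : IsIntPS x) (hy : IsIntPS y) : IsIntPS (x + y) := by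
  intro n
  obtain ⟨a, ha⟩ := hx n
  obtain ⟨b, hb⟩ := hy n
  exact ⟨a + b, by rw [map_add, ha, hb]; push_cast; rfl⟩

theorem isIntPS_zsmul {x : PowerSeries ℂ} (hx : IsIntPS x) (z : ℤ) : IsIntPS (z • x) := by
  intro n
  obtain ⟨a, ha⟩ := hx n
  exact ⟨z * a, by rw [map_zsmul, ha]; simp⟩

/-- A linear map to power series sending a set `A` to integer series sends the complex span of
the integer span of `A` into the complex span of the integer series. -/
theorem map_mem_span_intPSSet {V : Type*} [AddCommGroup V] [Module ℂ V]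
    (L : V →ₗ[ℂ] PowerSeries ℂ) {A : Set V} (hA : ∀ v ∈ A, IsIntPS (L v)) {v : V}
    (hv : v ∈ Submodule.span ℂ ((Submodule.span ℤ A : Submodule ℤ V) : Set V)) :
    L v ∈ Submodule.span ℂ intPSSet := by
  have h1 : L v ∈ Submodule.map L (Submodule.span ℂ ((Submodule.span ℤ A : Submodule ℤ V) : Set V)) :=
    Submodule.mem_map_of_mem hv
  rw [Submodule.map_span] at h1
  refine Submodule.span_mono ?_ h1
  rintro _ ⟨u, hu, rfl⟩
  refine Submodule.span_induction (p := fun u _ => IsIntPS (L u)) ?_ ?_ ?_ ?_ hu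
  · exact fun u hu => hA u hu
  · rw [map_zero]; exact isIntPS_zero
  · intro u u' _ _ h h'
    rw [map_add]
    exact isIntPS_add h h'
  · intro z u _ h
    rw [map_zsmul]
    exact isIntPS_zsmul h z

/-! ### Forms on `Γ₀(M)` -/

variable {M : ℕ} [NeZero M] {k : ℤ}

theorem coe_smul_cuspForm0 (c : ℂ) (F : CuspForm (Gamma0 M) k) : ⇑(c • F) = c • ⇑F := by
  ext z
  simp

/-- The `q`-expansion on `S_k(Γ₀(M))` as a linear map. -/
noncomputable def qExpL0 (M : ℕ) [NeZero M] (k : ℤ) :
    CuspForm (Gamma0 M) k →ₗ[ℂ] PowerSeries ℂ where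
  toFun F := qExpansion 1 ⇑F
  map_add' F G := by
    rw [FunLike.coe_add]
    exact UpperHalfPlane.qExpansion_add (nice_cuspForm_Gamma0 F).analytic
      (nice_cuspForm_Gamma0 G).analytic
  map_smul' c F := by
    rw [RingHom.id_apply, coe_smul_cuspForm0]
    exact UpperHalfPlane.qExpansion_smul (nice_cuspForm_Gamma0 F).analytic c

theorem qExpansion_mem_span_Gamma0 (U : CuspForm (Gamma0 M) k) :
    qExpansion 1 ⇑U ∈ Submodule.span ℂ intPSSet := by
  have hIS := Fermat.Agent.S23.Bounded.hasIntegralStructure M k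
  unfold CuspForm.HasIntegralStructure CuspForm.intLattice at hIS
  refine map_mem_span_intPSSet (qExpL0 M k) (v := U) (fun v hv => ?_) (by rw [hIS]; trivial)
  intro n
  obtain ⟨m, hm⟩ := hv n
  exact ⟨m, hm⟩

/-! ### Conjugating the components -/

/-- The action of `σ ∈ Aut(ℂ)` on Dirichlet characters. -/
noncomputable def charConj (M : ℕ) (σ : ℂ ≃+* ℂ) :
    DirichletCharacter ℂ M ≃ DirichletCharacter ℂ M where
  toFun χ := χ.ringHomComp (σ : ℂ →+* ℂ)
  invFun χ := χ.ringHomComp (σ.symm : ℂ →+* ℂ)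
  left_inv χ := by
    ext a
    simp [MulChar.ringHomComp_apply]
  right_inv χ := by
    ext a
    simp [MulChar.ringHomComp_apply]

theorem charConj_apply (σ : ℂ ≃+* ℂ) (χ : DirichletCharacter ℂ M) :
    charConj M σ χ = χ.ringHomComp (σ : ℂ →+* ℂ) := rfl

theorem qCoeff_eq_sum_charComponent (F : CuspForm (Gamma1 M) k) (n : ℕ) :
    qCoeff ⇑F n = ∑ χ : DirichletCharacter ℂ M, qCoeff ⇑(charComponent χ F) n := by
  conv_lhs => rw [← sum_charComponent F]
  exact qCoeff_sum1 _ _ n

/-- If `σ` fixes the `q`-expansion of `F` then `σ(F_χ) = F_{σχ}`. -/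
theorem qCoeff_charComponent_conj (hE : EisCharStatement) (F : CuspForm (Gamma1 M) k)
    (σ : ℂ ≃+* ℂ) (hσ : ∀ n, σ (qCoeff ⇑F n) = qCoeff ⇑F n) (χ : DirichletCharacter ℂ M)
    (n : ℕ) :
    qCoeff ⇑(charComponent (χ.ringHomComp (σ : ℂ →+* ℂ)) F) n =
      σ (qCoeff ⇑(charComponent χ F) n) := by
  classical
  have hc1 : ∀ χ : DirichletCharacter ℂ M, IsCF (Gamma1 M) k ⇑(charComponent χ F) :=
    fun χ => ⟨_, rfl⟩
  choose g' hg'1 hg'2 hg'3 using fun χ : DirichletCharacter ℂ M =>
    conj_char hE χ (hc1 χ) (hasChar_charComponent χ F) σ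
  choose F' hF' using hg'1
  have hsum : ∑ χ, F' χ = F := by
    apply qMap1_injective
    funext m
    rw [qMap1_apply, qMap1_apply, qCoeff_sum1, ← hσ m, qCoeff_eq_sum_charComponent, map_sum]
    exact Finset.sum_congr rfl fun χ _ => by rw [hF' χ, hg'3 χ m]
  have huniq := char_decomp_unique (M := M) (k := k)
    (c := fun χ' => (⇑(F' ((charConj M σ).symm χ')) : ℍ → ℂ))
    (c' := fun χ' => (⇑(charComponent χ' F) : ℍ → ℂ)) ?_
    (fun χ' => hasChar_charComponent χ' F) ?_
  · have h1 := congrFun huniq (charConj M σ χ)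
    simp only [Equiv.symm_apply_apply] at h1
    rw [← charConj_apply, ← h1, hF' χ, hg'3 χ n]
  · intro χ'
    have h1 := hg'2 ((charConj M σ).symm χ')
    rw [← hF', ← charConj_apply, Equiv.apply_symm_apply] at h1
    exact h1
  · have h1 : ∑ χ', (⇑(F' ((charConj M σ).symm χ')) : ℍ → ℂ) = ∑ χ, (⇑(F' χ) : ℍ → ℂ) :=
      Equiv.sum_comp (charConj M σ).symm (fun χ => (⇑(F' χ) : ℍ → ℂ))
    rw [h1, ← FunLike.coe_sum, ← FunLike.coe_sum, hsum, sum_charComponent]

/-- The components of a form with rational `q`-expansion have algebraic `q`-expansions. -/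
theorem isAlgebraic_qCoeff_charComponent (hE : EisCharStatement) (F : CuspForm (Gamma1 M) k)
    (hF : ∀ n : ℕ, ∃ r : ℚ, qCoeff ⇑F n = (r : ℂ)) (χ : DirichletCharacter ℂ M) (n : ℕ) :
    IsAlgebraic ℚ (qCoeff ⇑(charComponent χ F) n) := by
  apply isAlgebraic_of_finite_orbit
  refine Set.Finite.subset (Set.finite_range
    fun χ' : DirichletCharacter ℂ M => qCoeff ⇑(charComponent χ' F) n) ?_
  rintro _ ⟨σ, rfl⟩
  refine ⟨χ.ringHomComp (σ : ℂ →+* ℂ), ?_⟩
  exact qCoeff_charComponent_conj hE F σ (fun m => by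
    obtain ⟨r, hr⟩ := hF m
    rw [hr, map_ratCast]) χ n

/-! ### Bounded denominators -/

/-- A form with nebentypus and algebraic `q`-expansion has a nonzero integer multiple with
algebraic integer `q`-expansion. -/
theorem hasAlgIntMultiple_of_hasChar (hE : EisCharStatement) {χ : DirichletCharacter ℂ M}
    (F : CuspForm (Gamma1 M) k) (hFχ : HasChar M k χ ⇑F)
    (halg : ∀ n, IsAlgebraic ℚ (qCoeff ⇑F n)) : HasAlgIntMultiple (qExpansion 1 ⇑F) := by
  by_cases hF0 : (⇑F : ℍ → ℂ) = 0
  · rw [hF0, UpperHalfPlane.qExpansion_zero]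
    exact hasAlgIntMultiple_zero
  by_cases hχ : χ = 1
  · subst hχ
    obtain ⟨V, hV⟩ := HasChar.isCF_Gamma0 (⟨F, rfl⟩ : IsCF (Gamma1 M) k ⇑F) hFχ
    refine hasAlgIntMultiple_of_mem_span ?_ halg
    rw [← hV]
    exact qExpansion_mem_span_Gamma0 V
  have hpar : χ (-1) = (-1) ^ k := HasChar.eval_neg_one hF0 hFχ
  obtain ⟨w, G, hGmf, hGψ, hG0, hG1, hGint, hχψ⟩ := exists_eis hE hχ hpar
  have hGN := nice_of_isMF_Gamma1 hGmf
  obtain ⟨U, hU⟩ := isCF_Gamma0_mul (⟨F, rfl⟩ : IsCF (Gamma1 M) k ⇑F) hFχ hGmf hGψ hχψ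
  have hqU : qExpansion 1 ⇑U = qExpansion 1 ⇑F * qExpansion 1 G := by
    rw [hU]
    exact qExpansion_mul_of_nice (nice_coe F) hGN
  -- the product has algebraic coefficients
  have hprodalg : ∀ n, IsAlgebraic ℚ (PowerSeries.coeff n (qExpansion 1 ⇑F * qExpansion 1 G)) := by
    intro n
    rw [PowerSeries.coeff_mul]
    rw [← mem_algebraicClosure_iff]
    refine sum_mem fun ij _ => ?_
    rw [mem_algebraicClosure_iff]
    exact (halg ij.1).mul ((IsFractionRing.isAlgebraic_iff ℤ ℚ ℂ).mp (hGint ij.2).isAlgebraic)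
  obtain ⟨D, hD0, hD⟩ := hasAlgIntMultiple_of_mem_span
    (by rw [← hqU]; exact qExpansion_mem_span_Gamma0 U) hprodalg
  -- `qExpansion G = X * d`
  set d : PowerSeries ℂ := PowerSeries.mk fun n => PowerSeries.coeff (n + 1) (qExpansion 1 G)
    with hd
  have hXd : qExpansion 1 G = PowerSeries.X * d := by
    ext n
    rcases n with _ | n
    · rw [PowerSeries.coeff_zero_X_mul]
      exact hG0
    · rw [PowerSeries.coeff_succ_X_mul, hd, PowerSeries.coeff_mk]
  have hdI : d ∈ coeffSubring algIntSubring := by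
    intro n
    rw [hd, PowerSeries.coeff_mk]
    exact mem_algIntSubring.2 (hGint (n + 1))
  have hd1 : PowerSeries.constantCoeff d = 1 := by
    rw [← PowerSeries.coeff_zero_eq_constantCoeff_apply, hd, PowerSeries.coeff_mk]
    exact hG1
  refine ⟨D, hD0, ?_⟩
  apply mem_coeffSubring_of_mul_mem hdI hd1
  apply mem_coeffSubring_of_X_mul
  have : PowerSeries.X * (d * ((D : ℂ) • qExpansion 1 ⇑F)) =
      (D : ℂ) • (qExpansion 1 ⇑F * qExpansion 1 G) := by
    rw [hXd, mul_smul_comm, mul_smul_comm]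
    congr 1
    ring
  rw [this]
  exact hD

/-- A form with rational `q`-expansion has a nonzero integer multiple with algebraic integer
`q`-expansion. -/
theorem hasAlgIntMultiple_of_rational (hE : EisCharStatement) (F : CuspForm (Gamma1 M) k)
    (hF : ∀ n : ℕ, ∃ r : ℚ, qCoeff ⇑F n = (r : ℂ)) : HasAlgIntMultiple (qExpansion 1 ⇑F) := by
  have h1 : qExpansion 1 ⇑F =
      ∑ χ : DirichletCharacter ℂ M, qExpansion 1 ⇑(charComponent χ F) := by
    conv_lhs => rw [← sum_charComponent F]
    exact map_sum (qExpL M k) _ _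
  rw [h1]
  exact hasAlgIntMultiple_sum _ _ fun χ _ =>
    hasAlgIntMultiple_of_hasChar hE _ (hasChar_charComponent χ F)
      (isAlgebraic_qCoeff_charComponent hE F hF χ)

theorem qCoeff_smul1 (c : ℂ) (F : CuspForm (Gamma1 M) k) (n : ℕ) :
    qCoeff ⇑(c • F) n = c * qCoeff ⇑F n := by
  have := congrFun (map_smul (qMap1 M k) c F) n
  simpa only [qMap1_apply, Pi.smul_apply, smul_eq_mul] using this

/-- **Bounded denominators** on `Γ₁(M)`. -/
theorem boundedDenominators1 (hE : EisCharStatement) (F : CuspForm (Gamma1 M) k)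
    (hF : ∀ n : ℕ, ∃ r : ℚ, qCoeff ⇑F n = (r : ℂ)) :
    ∃ D : ℕ, D ≠ 0 ∧ ∀ n : ℕ, ∃ m : ℤ, (D : ℂ) * qCoeff ⇑F n = (m : ℂ) := by
  obtain ⟨D, hD0, hD⟩ := hasAlgIntMultiple_of_rational hE F hF
  have hrat : (D : ℂ) • qExpansion 1 ⇑F ∈ coeffSubring ratSubring :=
    smul_mem_coeffSubring (intSubring_le_ratSubring (natCast_mem_intSubring D))
      (isRatPS_iff.1 hF)
  have hint := mem_coeffSubring_int_of_algInt_of_rat hD hrat
  refine ⟨D, hD0, fun n => ?_⟩
  obtain ⟨m, hm⟩ := mem_intSubring.1 (hint n)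
  refine ⟨m, ?_⟩
  rw [hm, PowerSeries.coeff_smul, smul_eq_mul]
  rfl

/-- **Integral structure** of `S_k(Γ₁(M))`. -/
theorem hasIntegralStructure1 (hE : EisCharStatement) (M : ℕ) [NeZero M] (k : ℤ) :
    HasIntegralStructure1 M k := by
  classical
  have := finiteDimensional_cuspForm1 hE M k
  unfold HasIntegralStructure1
  set L : Submodule ℂ (CuspForm (Gamma1 M) k) :=
    Submodule.span ℂ ((intLattice1 M k : Submodule ℤ (CuspForm (Gamma1 M) k)) :
      Set (CuspForm (Gamma1 M) k)) with hL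
  set W : Submodule ℂ (ℕ → ℂ) := LinearMap.range (qMap1 M k) with hW
  have : FiniteDimensional ℂ W := LinearMap.finiteDimensional_range (qMap1 M k)
  have hstable : ∀ (σ : ℂ ≃+* ℂ), ∀ w ∈ W, (fun i => σ (w i)) ∈ W := by
    rintro σ w ⟨f, rfl⟩
    obtain ⟨g, hg⟩ := galoisStable1 hE M k σ f
    refine ⟨g, ?_⟩
    funext n
    rw [qMap1_apply, hg n, qMap1_apply]
  have hspan := Fermat.Agent.S23.span_rational_eq_of_stable W hstable
  have hrat : ∀ w : ℕ → ℂ, (w ∈ W ∧ ∀ i : ℕ, ∃ r : ℚ, w i = (r : ℂ)) →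
      w ∈ L.map (qMap1 M k) := by
    rintro w ⟨⟨f, rfl⟩, hr⟩
    obtain ⟨D, hD0, hD⟩ := boundedDenominators1 hE f (fun n => hr n)
    have hDf : ((D : ℂ) • f) ∈ L := by
      apply Submodule.subset_span
      apply Submodule.subset_span
      intro n
      obtain ⟨m, hm⟩ := hD n
      exact ⟨m, by rw [qCoeff_smul1, hm]⟩
    have hDC : (D : ℂ) ≠ 0 := by exact_mod_cast hD0
    have hf : f ∈ L := by
      have := L.smul_mem ((D : ℂ)⁻¹) hDf
      rwa [smul_smul, inv_mul_cancel₀ hDC, one_smul] at this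
    exact ⟨f, hf, rfl⟩
  have hWle : W ≤ L.map (qMap1 M k) := by
    rw [← hspan]
    exact Submodule.span_le.mpr fun w hw => hrat w hw
  rw [eq_top_iff]
  intro f _
  have hfW : qMap1 M k f ∈ W := ⟨f, rfl⟩
  obtain ⟨g, hg, hgf⟩ := hWle hfW
  have := qMap1_injective hgf
  rwa [← this]

/-- A form with algebraic `q`-expansion has a nonzero integer multiple with algebraic integer
`q`-expansion. -/
theorem hasAlgIntMultiple1 (hE : EisCharStatement) (F : CuspForm (Gamma1 M) k)
    (halg : ∀ n, IsAlgebraic ℚ (qCoeff ⇑F n)) : HasAlgIntMultiple (qExpansion 1 ⇑F) := by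
  have hIS := hasIntegralStructure1 hE M k
  unfold HasIntegralStructure1 intLattice1 at hIS
  refine hasAlgIntMultiple_of_mem_span ?_ halg
  refine map_mem_span_intPSSet (qExpL M k) (v := F) (fun v hv n => ?_) (by rw [hIS]; trivial)
  obtain ⟨m, hm⟩ := hv n
  exact ⟨m, hm⟩

/-- Bounded denominators for forms with algebraic `q`-expansion, in elementary terms. -/
theorem exists_isIntegral_multiple1 (hE : EisCharStatement) (F : CuspForm (Gamma1 M) k)
    (halg : ∀ n, IsAlgebraic ℚ (qCoeff ⇑F n)) :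
    ∃ D : ℕ, D ≠ 0 ∧ ∀ n : ℕ, IsIntegral ℤ ((D : ℂ) * qCoeff ⇑F n) := by
  obtain ⟨D, hD0, hD⟩ := hasAlgIntMultiple1 hE F halg
  refine ⟨D, hD0, fun n => ?_⟩
  have := mem_algIntSubring.1 (hD n)
  rwa [PowerSeries.coeff_smul, smul_eq_mul] at this

end Fermat.Agent.S48x.GS1
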