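import Fermat.Agent.S48x.GS1.Defs
import Fermat.Agent.S48x.GS1.Divide

/-!
# P-S48 GS1-(D): `DivideStatement` (helper79)

One-line wrapper: the division lemma `exists_mdiff_quotient` of `Divide.lean` (Mathlib only) in the
shape `DivideStatement` of `GS1/Defs.lean`.
-/

set_option autoImplicit false

namespace Fermat.Agent.S48x.GS1

/-- The division lemma, in the shape expected by `GS1/Main.lean`. -/
theorem divideStatement : DivideStatement :=
  fun hu hv hw hv0 _ hn h => exists_mdiff_quotient hu hv hw hv0 hn h

end Fermat.Agent.S48x.GS1
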