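import Mathlib
import Fermat.Agent.S48x.GS1.Integral
import Fermat.Agent.S48x.GS1.EisCharStatement

/-!
# P-S48, block GS1: final statements  (helper39)

The results of `Conj.lean`, `Stable.lean`, `Integral.lean` with the hypothesis
`EisCharStatement` discharged by `eisCharStatement` (helper80).  All weights `k : ℤ`, all levels
`M ≥ 1`.  Namespace `Fermat.Agent.S48x.GS1.Final`.

* `Final.conj_char` : the `Aut(ℂ)`-conjugate of a cusp form on `Γ₁(M)` with nebentypus `χ` is a cusp
  form on `Γ₁(M)` with nebentypus `σ ∘ χ`;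
* `Final.galoisStable1 M k : GaloisStable1 M k`;
* `Final.finiteDimensional_cuspForm1 M k`;
* `Final.hasIntegralStructure1 M k : HasIntegralStructure1 M k`, `Final.span_intForms_eq_top`;
* `Final.boundedDenominators1`, `Final.exists_isIntegral_multiple1`.
-/

set_option autoImplicit false

open UpperHalfPlane ModularForm CongruenceSubgroup
open scoped MatrixGroups ModularForm Manifold

namespace Fermat.Agent.S48x.GS1.Final

open Fermat.Agent.S20.Free ModularFormClass

variable {M : ℕ} [NeZero M] {k : ℤ}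

/-- **Conjugation of a nebentypus component.** -/
theorem conj_char (χ : DirichletCharacter ℂ M) {g : ℍ → ℂ} (hg : IsCF (Gamma1 M) k g)
    (hgχ : HasChar M k χ g) (σ : ℂ ≃+* ℂ) :
    ∃ g' : ℍ → ℂ, IsCF (Gamma1 M) k g' ∧ HasChar M k (χ.ringHomComp (σ : ℂ →+* ℂ)) g' ∧
      ∀ n, qCoeff g' n = σ (qCoeff g n) :=
  GS1.conj_char eisCharStatement χ hg hgχ σ

/-- **Galois stability** of `S_k(Γ₁(M))`. -/
theorem galoisStable1 (M : ℕ) [NeZero M] (k : ℤ) : GaloisStable1 M k :=
  GS1.galoisStable1 eisCharStatement M k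

/-- **Finite dimensionality** of `S_k(Γ₁(M))`. -/
theorem finiteDimensional_cuspForm1 (M : ℕ) [NeZero M] (k : ℤ) :
    FiniteDimensional ℂ (CuspForm (Gamma1 M) k) :=
  GS1.finiteDimensional_cuspForm1 eisCharStatement M k

/-- **Integral structure** of `S_k(Γ₁(M))`. -/
theorem hasIntegralStructure1 (M : ℕ) [NeZero M] (k : ℤ) : HasIntegralStructure1 M k :=
  GS1.hasIntegralStructure1 eisCharStatement M k

/-- The complex span of the forms with integral `q`-expansion is everything. -/
theorem span_intForms_eq_top (M : ℕ) [NeZero M] (k : ℤ) :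
    Submodule.span ℂ {g : CuspForm (Gamma1 M) k | ∀ n : ℕ, ∃ m : ℤ, qCoeff g n = (m : ℂ)} = ⊤ := by
  have h := hasIntegralStructure1 M k
  unfold HasIntegralStructure1 intLattice1 at h
  rwa [Submodule.span_span_of_tower] at h

/-- **Bounded denominators** on `Γ₁(M)`. -/
theorem boundedDenominators1 (F : CuspForm (Gamma1 M) k)
    (hF : ∀ n : ℕ, ∃ r : ℚ, qCoeff ⇑F n = (r : ℂ)) :
    ∃ D : ℕ, D ≠ 0 ∧ ∀ n : ℕ, ∃ m : ℤ, (D : ℂ) * qCoeff ⇑F n = (m : ℂ) :=
  GS1.boundedDenominators1 eisCharStatement F hF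

/-- Bounded denominators for forms with algebraic `q`-expansion. -/
theorem exists_isIntegral_multiple1 (F : CuspForm (Gamma1 M) k)
    (halg : ∀ n, IsAlgebraic ℚ (qCoeff ⇑F n)) :
    ∃ D : ℕ, D ≠ 0 ∧ ∀ n : ℕ, IsIntegral ℤ ((D : ℂ) * qCoeff ⇑F n) :=
  GS1.exists_isIntegral_multiple1 eisCharStatement F halg

end Fermat.Agent.S48x.GS1.Final
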